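import Fermat.Agent.CFT.PTLevel.Pairing
import Fermat.Prelude.Def_GroupCohomology_ContinuousUnramified

/-!
# From cocycle groups to `Ш¹` and `Ш²`
-/

set_option autoImplicit false
set_option linter.unusedSectionVars false
set_option linter.style.haveILetI false

noncomputable section

namespace Fermat.Agent.CFT.PTLevel

open CategoryTheory Module ExtCitation Fermat.Agent.Arith IntermediateField
open Fermat.Agent.CFT.Local Fermat.Agent.CFT.Idele Fermat.Agent.CFT.Duality groupCohomology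

local instance factPrimeBridge (q : Nat.Primes) : Fact (q : ℕ).Prime := ⟨q.2⟩

/-- A pairing descends along surjections which kill only what pairs to zero, with its kernels. -/
theorem exists_descend_pairing {k Y₀ X₀ Y X : Type*} [AddCommGroup k] [AddCommGroup Y₀]
    [AddCommGroup X₀] [AddCommGroup Y] [AddCommGroup X] (B : Y₀ →+ X₀ →+ k) (f : Y₀ →+ Y)
    (g : X₀ →+ X) (hf : Function.Surjective f) (hg : Function.Surjective g)
    (hf0 : ∀ a, f a = 0 → ∀ b, B a b = 0) (hg0 : ∀ b, g b = 0 → ∀ a, B a b = 0)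
    (hfB : ∀ a, (∀ b, B a b = 0) → f a = 0) (hgB : ∀ b, (∀ a, B a b = 0) → g b = 0) :
    ∃ B' : Y →+ X →+ k, (∀ y, (∀ x, B' y x = 0) → y = 0) ∧ (∀ x, (∀ y, B' y x = 0) → x = 0) := by
  let B₁ : Y →+ X₀ →+ k := AddMonoidHom.liftOfSurjective f hf
    ⟨B, fun a ha => AddMonoidHom.ext fun b => hf0 a ha b⟩
  have h₁ : ∀ a b, B₁ (f a) b = B a b := fun a b => DFunLike.congr_fun
    (AddMonoidHom.liftOfRightInverse_comp_apply f _ _ ⟨B, _⟩ a) b
  let φ : {ψ : X₀ →+ Y →+ k // g.ker ≤ ψ.ker} := ⟨B₁.flip, fun b hb =>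
    AddMonoidHom.ext fun y => by obtain ⟨a, rfl⟩ := hf y; exact (h₁ a b).trans (hg0 b hb a)⟩
  let B₂ : X →+ Y →+ k := AddMonoidHom.liftOfSurjective g hg φ
  have h₂ : ∀ a b, B₂.flip (f a) (g b) = B a b := fun a b => (DFunLike.congr_fun
    (AddMonoidHom.liftOfRightInverse_comp_apply g _ (Function.rightInverse_surjInv hg) φ b)
    (f a)).trans (h₁ a b)
  refine ⟨B₂.flip, fun y h => ?_, fun x h => ?_⟩
  · obtain ⟨a, rfl⟩ := hf y
    exact hfB a fun b => (h₂ a b).symm.trans (h _)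
  · obtain ⟨b, rfl⟩ := hg x
    exact hgB b fun a => (h₂ a b).symm.trans (h _)

variable {p : ℕ} [hp : Fact p.Prime] {S : Finset Nat.Primes}

section Sha1

variable {D : Rep (ZMod p) GQ} {K : IntermediateField ℚ QBar} [FiniteDimensional ℚ K]
  [Normal ℚ K] [DistribMulAction (K ≃ₐ[ℚ] K) D]

theorem locRes_H1π_eq_zero_iff {Γ : Type} [Group Γ] (l : Γ →* GQ) (c : cocycles₁ D) :
    (map l (𝟙 (Rep.res l D)) 1).hom ((H1π D).hom c) = 0 ↔
      ∃ x : D, ∀ τ, c (l τ) = D.ρ (l τ) x - x := by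
  rw [show (map l (𝟙 (Rep.res l D)) 1).hom ((H1π D).hom c) =
      (H1π (Rep.res l D)).hom ((mapCocycles₁ l (𝟙 (Rep.res l D))).hom c) from
    H1π_comp_map_apply l (𝟙 (Rep.res l D)) c]
  rw [H1π_eq_zero_iff]
  constructor
  · rintro ⟨x, hx⟩
    refine ⟨x, fun τ => ?_⟩
    have := congr_fun hx τ
    rw [coe_mapCocycles₁] at this
    exact this.symm
  · rintro ⟨x, hx⟩
    refine ⟨x, funext fun τ => ?_⟩
    rw [coe_mapCocycles₁]
    exact (hx τ).symm

variable (hD : ∀ (g : GQ) (a : D), res K g • a = D.ρ g a)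
include hD

/-- The classes of `locTriv₁`. -/
theorem exists_toSha₁ (hp2 : p ≠ 2) :
    ∃ π : locTriv₁ K D S →+ sha₁ S D, Function.Surjective π ∧
      ∀ a : locTriv₁ K D S, π a = 0 ↔
        ∃ x : D, ∀ g, (a : GQ → D) g = res K g • x - x := by
  have hkill : ∀ a : D, p • a = 0 := ZModModule.char_nsmul_eq_zero p
  have hmem : ∀ a : locTriv₁ K D S, (a : GQ → D) ∈ cocycles₁ D := fun a =>
    (mem_cocycles₁_iff _).2 fun g h => by rw [← hD]; exact a.2.2.1 g h
  let cls : locTriv₁ K D S → H1 D := fun a => (H1π D).hom ⟨_, hmem a⟩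
  have hsha : ∀ a, cls a ∈ sha₁ S D := fun a => by
    refine ⟨(mem_continuousH1S_iff S D _).2 ⟨_, a.2.1, rfl⟩, LinearMap.mem_ker.2 (funext fun v => ?_)⟩
    rw [locTotal_apply, Pi.zero_apply]
    refine (locRes_H1π_eq_zero_iff (extArithLoc S v) _).2 ?_
    match v with
    | Sum.inl _ =>
      obtain ⟨x, hx⟩ := exists_coboundary_infinite hp2 hkill _ a.2.2.1
      exact ⟨x, fun τ => (hx τ).trans (by rw [hD]; rfl)⟩
    | Sum.inr q =>
      obtain ⟨x, hx⟩ := a.2.2.2 q.1 q.2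
      exact ⟨x, fun τ => (hx τ).trans (by rw [hD]; rfl)⟩
  refine ⟨AddMonoidHom.mk' (fun a => ⟨cls a, hsha a⟩) fun a b => Subtype.ext ?_, fun y => ?_,
    fun a => ?_⟩
  · exact map_add (H1π D).hom ⟨_, hmem a⟩ ⟨_, hmem b⟩
  · obtain ⟨⟨y, hy⟩, rfl⟩ : ∃ z, z = y := ⟨y, rfl⟩
    obtain ⟨c, hc, hcy⟩ := (mem_continuousH1S_iff S D _).1 hy.1
    have hcoc : ∀ g h, c (g * h) = res K g • c h + c g := fun g h => by
      rw [hD]; exact (mem_cocycles₁_iff (c : GQ → D)).1 c.2 g h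
    have hl : ∀ q ∈ S, ∃ x : D, ∀ τ, c (loc q τ) = res K (loc q τ) • x - x := fun q hq => by
      have h : (locRes (extArithLoc S) D (Sum.inr ⟨q, hq⟩ : extArithIndex S)).hom y = 0 :=
        congrFun (LinearMap.mem_ker.1 hy.2) (Sum.inr ⟨q, hq⟩ : extArithIndex S)
      rw [← hcy] at h
      obtain ⟨x, hx⟩ := (locRes_H1π_eq_zero_iff (extArithLoc S (Sum.inr ⟨q, hq⟩)) c).1 h
      exact ⟨x, fun τ => (hx τ).trans (by rw [hD]; rfl)⟩
    exact ⟨⟨_, hc, hcoc, hl⟩, Subtype.ext hcy⟩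
  · rw [AddMonoidHom.mk'_apply, ← Subtype.coe_inj, ZeroMemClass.coe_zero]
    show (H1π D).hom _ = 0 ↔ _
    rw [H1π_eq_zero_iff]
    constructor
    · rintro ⟨x, hx⟩
      exact ⟨x, fun g => by rw [hD]; exact (congr_fun hx g).symm⟩
    · rintro ⟨x, hx⟩
      refine ⟨x, funext fun g => ?_⟩
      rw [d₀₁_hom_apply, ← hD]
      exact (hx g).symm

end Sha1

section Sha2

variable {M : Rep (ZMod p) GQ} {K : IntermediateField ℚ QBar} [FiniteDimensional ℚ K]
  [Normal ℚ K] {A : Type*} [AddCommGroup A] [DistribMulAction (K ≃ₐ[ℚ] K) A]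
  (Θ : M ≃+ PT.DualMod K A) (hΘ : ∀ (g : GQ) (m : M), Θ (M.ρ g m) = g • Θ m)

include hΘ

theorem symm_smul (g : GQ) (φ : PT.DualMod K A) : Θ.symm (g • φ) = M.ρ g (Θ.symm φ) :=
  Θ.injective (by rw [AddEquiv.apply_symm_apply, hΘ, AddEquiv.apply_symm_apply])

/-- The classes of `locTriv₂`. -/
theorem exists_toSha₂ (hp2 : p ≠ 2) (hA : ∀ a : A, p • a = 0) :
    ∃ π : locTriv₂ K A S →+ sha₂ S M, Function.Surjective π ∧
      ∀ c : locTriv₂ K A S, π c = 0 ↔ ∃ m, IsLevelConstantS₁ S m ∧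
        ∀ g h, (c : GQ × GQ → PT.DualMod K A) (g, h) = PT.dd m g h := by
  have hmem : ∀ c : locTriv₂ K A S,
      (fun x => Θ.symm ((c : GQ × GQ → PT.DualMod K A) x)) ∈ levelCocyclesS₂ S M := fun c => by
    refine (mem_levelCocyclesS₂_iff S M _).2 ⟨(mem_cocycles₂_iff _).2 fun g h j => ?_,
      c.2.2.1.comp Θ.symm⟩
    rw [← symm_smul Θ hΘ, ← map_add, ← map_add, c.2.1 g h j]
  let cls : locTriv₂ K A S → continuousH2S S M := fun c => continuousH2Sπ S M ⟨_, hmem c⟩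
  have hloc : ∀ (f : levelCocyclesS₂ S M) (v : extArithIndex S),
      locRes₂S S M (extArithLoc S v) (continuousH2Sπ S M f) = 0 ↔
        ∃ t : extArithLocalGroups S v → M, IsLevelConstant₁ (extArithLoc S v) t ∧
          ∀ g h, (f : GQ × GQ → M) (extArithLoc S v g, extArithLoc S v h) =
            M.ρ (extArithLoc S v g) (t h) - t (g * h) + t g := fun f v => by
    rw [locRes₂S, LinearMap.comp_apply]
    erw [continuousH2Map_continuousH2π, continuousH2π_eq_zero_iff, mem_levelCoboundaries₂_iff]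
    constructor
    · rintro ⟨t, ht, he⟩
      refine ⟨t, ht, fun g h => ?_⟩
      have := congr_fun he (g, h)
      rw [d₁₂_hom_apply] at this
      exact this.symm
    · rintro ⟨t, ht, he⟩
      refine ⟨t, ht, funext fun x => ?_⟩
      rw [d₁₂_hom_apply]
      exact (he x.1 x.2).symm
  have hsha : ∀ c, cls c ∈ sha₂ S M := fun c => by
    refine LinearMap.mem_ker.2 (funext fun v => ?_)
    rw [locTotal₂S_apply, Pi.zero_apply]
    refine (hloc _ v).2 ?_
    match v with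
    | Sum.inl _ =>
      obtain ⟨t, ht, he⟩ := exists_cochain_infinite hp2 hA _ c.2.1
      refine ⟨fun g => Θ.symm (t g), ht.comp Θ.symm, fun g h => ?_⟩
      show Θ.symm _ = _
      refine (congrArg Θ.symm (he g h)).trans ?_
      rw [map_add, map_sub, symm_smul Θ hΘ]
      rfl
    | Sum.inr q =>
      obtain ⟨t, ht, he⟩ := c.2.2.2 q.1 q.2
      refine ⟨fun g => Θ.symm (t g), ht.comp Θ.symm, fun g h => ?_⟩
      show Θ.symm _ = _
      refine (congrArg Θ.symm (he g h)).trans ?_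
      rw [map_add, map_sub, symm_smul Θ hΘ]
      rfl
  refine ⟨AddMonoidHom.mk' (fun c => ⟨cls c, hsha c⟩) fun a b => Subtype.ext ?_, fun y => ?_,
    fun c => ?_⟩
  · show continuousH2Sπ S M _ = continuousH2Sπ S M _ + continuousH2Sπ S M _
    rw [← map_add]
    exact congrArg _ (Subtype.ext (funext fun x => map_add Θ.symm _ _))
  · obtain ⟨⟨y, hy⟩, rfl⟩ : ∃ z, z = y := ⟨y, rfl⟩
    have hex := Submodule.Quotient.mk_surjective _ y
    obtain ⟨f, rfl⟩ := hex
    have hf := (mem_levelCocyclesS₂_iff S M _).1 f.2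
    have hc : (fun x => Θ ((f : GQ × GQ → M) x)) ∈ locTriv₂ K A S := by
      refine ⟨fun g h j => ?_, hf.2.comp Θ, fun q hq => ?_⟩
      · show Θ _ + Θ _ = g • Θ _ + Θ _
        rw [← map_add, (mem_cocycles₂_iff _).1 hf.1 g h j, map_add, hΘ]
      · have h : locRes₂S S M (extArithLoc S (Sum.inr ⟨q, hq⟩ : extArithIndex S))
            (continuousH2Sπ S M f) = 0 :=
          congrFun (LinearMap.mem_ker.1 hy) (Sum.inr ⟨q, hq⟩ : extArithIndex S)
        obtain ⟨t, ht, he⟩ := (hloc f (Sum.inr ⟨q, hq⟩)).1 h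
        refine ⟨fun g => Θ (t g), ht.comp Θ, fun g h => ?_⟩
        refine (congrArg Θ (he g h)).trans ?_
        rw [map_add, map_sub, hΘ]
        rfl
    refine ⟨⟨_, hc⟩, Subtype.ext ?_⟩
    show continuousH2Sπ S M _ = continuousH2Sπ S M f
    exact congrArg _ (Subtype.ext (funext fun x => Θ.symm_apply_apply _))
  · rw [AddMonoidHom.mk'_apply, ← Subtype.coe_inj, ZeroMemClass.coe_zero]
    show continuousH2Sπ S M _ = 0 ↔ _
    rw [continuousH2Sπ_eq_zero_iff, mem_levelCoboundariesS₂_iff]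
    constructor
    · rintro ⟨x, hx, he⟩
      refine ⟨fun g => Θ (x g), hx.comp Θ, fun g h => Θ.symm.injective ?_⟩
      have := congr_fun he (g, h)
      rw [d₁₂_hom_apply] at this
      refine this.symm.trans ?_
      simp only [PT.dd, map_add, map_sub, symm_smul Θ hΘ, AddEquiv.symm_apply_apply]
    · rintro ⟨m, hm, he⟩
      refine ⟨fun g => Θ.symm (m g), hm.comp Θ.symm, funext fun x => ?_⟩
      rw [d₁₂_hom_apply]
      refine Eq.trans ?_ (congrArg Θ.symm (he x.1 x.2)).symm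
      simp only [PT.dd, map_add, map_sub, symm_smul Θ hΘ]

end Sha2

/-- The duality for a module whose action factors through a level containing `ζ`. -/
theorem exists_sha_pairing (hp2 : p ≠ 2) (hpS : pPrime p ∈ S) {M D : Rep (ZMod p) GQ}
    {K : IntermediateField ℚ QBar} [FiniteDimensional ℚ K] [Normal ℚ K]
    [DistribMulAction (K ≃ₐ[ℚ] K) D] (hD : ∀ (g : GQ) (a : D), res K g • a = D.ρ g a)
    (Θ : M ≃+ PT.DualMod K D) (hΘ : ∀ (g : GQ) (m : M), Θ (M.ρ g m) = g • Θ m)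
    {ι : Type} [Fintype ι] {ε : Lat (K ≃ₐ[ℚ] K) ι →+ D} (hε : Presentation p ε)
    {ζ : QBar} (hζ : IsPrimitiveRoot ζ p) (hζK : ζ ∈ K) (hK : K.IsUnramifiedOutside S) :
    ∃ B : sha₁ S D →ₗ[ZMod p] sha₂ S M →ₗ[ZMod p] ZMod p,
      (∀ y, (∀ x, B y x = 0) → y = 0) ∧ (∀ x, (∀ y, B y x = 0) → x = 0) := by
  obtain ⟨B, hB1, hB2, hB3, hB4⟩ := exists_pairing hε hp2 hpS hζ hζK hK
  obtain ⟨π₁, hs1, hk1⟩ := exists_toSha₁ (S := S) hD hp2
  obtain ⟨π₂, hs2, hk2⟩ := exists_toSha₂ (S := S) Θ hΘ hp2 hε.killed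
  have hex := exists_descend_pairing B π₁ π₂ hs1 hs2
    (fun a h b => hB1 a b ((hk1 a).1 h)) (fun b h a => hB2 a b ((hk2 b).1 h))
    (fun a h => (hk1 a).2 (hB3 a h)) (fun b h => (hk2 b).2 (hB4 b h))
  obtain ⟨B', hl, hr⟩ := hex
  let B'' : sha₁ S D →+ sha₂ S M →ₗ[ZMod p] ZMod p :=
    AddMonoidHom.mk' (fun y => AddMonoidHom.toZModLinearMap p (B' y)) fun y y' =>
      LinearMap.ext fun x => by simp
  exact ⟨AddMonoidHom.toZModLinearMap p B'', fun y h => hl y h, fun x h => hr x h⟩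

end Fermat.Agent.CFT.PTLevel
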