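import Fermat.Agent.CFT.PT.LinkC
import Fermat.Agent.CFT.PT.Arith.Roots
import Fermat.Agent.CFT.PT.Arith.Basic

/-!
# Constructions of links

Every equivariant map into classes is linked to a cocycle, coboundaries are linked to zero, and a
cocycle linked to a map which extends to the lattice up to a good idele map is a coboundary.
-/

set_option autoImplicit false
set_option linter.unusedSectionVars false
set_option linter.style.haveILetI false

noncomputable section

namespace Fermat.Agent.CFT.PTLevel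

open ExtCitation Fermat.Agent.Arith IntermediateField Fermat.Agent.CFT.Local Fermat.Agent.CFT.Idele
open Fermat.Agent.CFT.Duality groupCohomology

local instance factPrimeConstruct (q : Nat.Primes) : Fact (q : ℕ).Prime := ⟨q.2⟩

section Extend

variable {S : Finset Nat.Primes}

variable {K L : IntermediateField ℚ QBar} [FiniteDimensional ℚ K] [Normal ℚ K]
  [FiniteDimensional ℚ L] [Normal ℚ L]
  {A ι : Type*} [AddCommGroup A] [DistribMulAction (K ≃ₐ[ℚ] K) A] [Fintype ι] {p : ℕ}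
  [hp : Fact p.Prime] {ε : Lat (K ≃ₐ[ℚ] K) ι →+ A} (hε : Presentation p ε)

/-- Maps on relations with divisible orders extend to the lattice in a field unramified outside
`S`. -/
theorem exists_extend_family (hpS : pPrime p ∈ S) (hL : L.IsUnramifiedOutside S) {κ : Type*}
    [Fintype κ] (a : κ → ε.ker →+ Additive Lˣ)
    (hdiv : ∀ k x, diag L (a k (mulP hε.smul_mem x)) ∈ PT.divOrd L p (S : Set Nat.Primes)) :
    ∃ (L' : IntermediateField ℚ QBar) (_ : FiniteDimensional ℚ L') (_ : Normal ℚ L') (h : L ≤ L'),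
      L'.IsUnramifiedOutside S ∧ ∃ a' : κ → Lat (K ≃ₐ[ℚ] K) ι →+ Additive L'ˣ,
        ∀ k (s : ε.ker), a' k s = PT.unitsIncl h (a k s) := by
  classical
  choose aQ haQ using fun k =>
    exists_extend_units (F := QBar) ε.ker ((PT.unitsToQ L).comp (a k))
  have hroot : ∀ kix : κ × ι × (K ≃ₐ[ℚ] K), ∃ F : IntermediateField ℚ QBar,
      F.IsUnramifiedOutside S ∧
        (((aQ kix.1 (Lat.e kix.2.1 kix.2.2)).toMul : QBarˣ) : QBar) ∈ F := by
    rintro ⟨k, i, x⟩
    set z := mulP hε.smul_mem (Lat.e i x : Lat (K ≃ₐ[ℚ] K) ι)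
    obtain ⟨F, -, -, hF, -, hyF⟩ := PT.exists_ur_root hpS hL (a k z).toMul 1
      (fun q hq σ => by
        obtain ⟨n, hn⟩ := hdiv k (Lat.e i x) q (by simpa using hq) (lift L σ)
        refine ⟨n, ?_⟩
        rw [pow_one]
        refine Eq.trans ?_ hn
        conv_lhs => rw [← res_lift L σ, PT.norm_localEmb_res]
        rfl)
      (((aQ k (Lat.e i x)).toMul : QBarˣ) : QBar) (by
        have e : aQ k ((p : ℕ) • Lat.e i x) = PT.unitsToQ L (a k z) :=
          haQ k z
        rw [map_nsmul] at e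
        rw [pow_one]
        exact congrArg (fun u : Additive QBarˣ => ((u.toMul : QBarˣ) : QBar)) e)
    exact ⟨F, hF, hyF⟩
  choose F hF hmemF using hroot
  obtain ⟨L', h1, h2, hur, hle, hFle⟩ := PT.exists_common_fields hL F hF
  refine ⟨L', h1, h2, hle, hur, ?_⟩
  have hlift : ∀ k i x, ∃ y : Additive L'ˣ, PT.unitsToQ L' y = aQ k (Lat.e i x) := fun k i x => by
    refine ⟨Additive.ofMul (Units.mk0 ⟨_, hFle (k, i, x) (hmemF (k, i, x))⟩
      fun h => Units.ne_zero _ (congrArg Subtype.val h)), Additive.toMul.injective (Units.ext rfl)⟩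
  choose y hy using hlift
  refine ⟨fun k => Lat.ofBasis (y k), fun k s => PT.unitsToQ_injective L' ?_⟩
  have e : (PT.unitsToQ L').comp (Lat.ofBasis (y k)) = aQ k := Lat.hom_ext fun i x => by
    rw [AddMonoidHom.comp_apply, Lat.ofBasis_e, hy]
  rw [PT.unitsToQ_unitsIncl]
  exact (DFunLike.congr_fun e _).trans (haQ k s)

theorem nsmul_mem_divOrd {S' : Finset Nat.Primes} (hK : K.IsUnramifiedOutside S') (z : J K) :
    p • z ∈ PT.divOrd K p (S' : Set Nat.Primes) := fun q hq g => by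
  obtain ⟨n, hn⟩ := PT.exists_norm_eq_zpow_of_ur K hK (by simpa using hq : q ∉ S')
    (val z.toMul q (res K g))
  refine ⟨n, ?_⟩
  rw [PT.normAt_nsmul, show PT.normAt K q g z = (q : ℝ) ^ n from
    (PT.norm_val_eq K z q g).symm.trans hn, ← zpow_natCast, ← zpow_mul, mul_comm]

end Extend

variable {K L : IntermediateField ℚ QBar} [FiniteDimensional ℚ K] [Normal ℚ K]
  [FiniteDimensional ℚ L] [Normal ℚ L]
  {A ι : Type*} [AddCommGroup A] [DistribMulAction (K ≃ₐ[ℚ] K) A] [Fintype ι] {p : ℕ}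
  [hp : Fact p.Prime] {ε : Lat (K ≃ₐ[ℚ] K) ι →+ A} {S : Finset Nat.Primes}

section Pre

variable (hε : Presentation p ε) {G X : Type*} [Group G] {π : G →* (K ≃ₐ[ℚ] K)} [AddCommGroup X]

include hε in
theorem pre_injective :
    Function.Injective (PT.TwHom.pre (π := π) ε : PT.TwHom π A X → _) := fun φ ψ h =>
  PT.TwHom.ext fun a => by
    obtain ⟨x, rfl⟩ := hε.surjective a
    exact congr_arg (fun η : PT.TwHom π (Lat (K ≃ₐ[ℚ] K) ι) X => η x) h

include hε in
theorem exists_pre_eq (φ : PT.TwHom π (Lat (K ≃ₐ[ℚ] K) ι) X) (h : ∀ s : ε.ker, φ s = 0) :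
    ∃ m : PT.TwHom π A X, PT.TwHom.pre ε m = φ := by
  have hk : ε.ker ≤ φ.toHom.ker := fun x hx => AddMonoidHom.mem_ker.mpr (h ⟨x, hx⟩)
  refine ⟨PT.TwHom.of (AddMonoidHom.liftOfSurjective ε hε.surjective ⟨φ.toHom, hk⟩),
    PT.TwHom.ext fun x => ?_⟩
  exact AddMonoidHom.liftOfRightInverse_comp_apply ε _ (Function.rightInverse_surjInv hε.surjective)
    ⟨φ.toHom, hk⟩ x

end Pre

variable (hε : Presentation p ε)

include hε in
/-- The cocycle of a link is a cocycle. -/
theorem isCocycle_of_link {le : K ≤ L} {c : GQ × GQ → PT.DualMod K A} {f : ε.ker →+ C K}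
    {b : ε.ker →+ J L}
    {e : (L ≃ₐ[ℚ] L) → PT.TwHom (levelRes le) (Lat (K ≃ₐ[ℚ] K) ι) (Additive Lˣ)}
    (hl : PT.LinkAt hε S le c f b e) : IsCocycle₂ c := fun g h j => by
  refine pre_injective hε ?_
  rw [map_add, map_add, PT.TwHom.pre_smul ε hε.map_smul, hl.spec, hl.spec, hl.spec, hl.spec,
    PT.smul_toQHom, ← map_add, ← map_add, map_mul (res L) g h, map_mul (res L) h j]
  exact congrArg _ (isCocycle₂_dOne e (res L g) (res L h) (res L j))

include hε in
/-- Every equivariant map into classes is linked to a cocycle. -/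
theorem exists_link (hpS : pPrime p ∈ S) (hK : K.IsUnramifiedOutside S)
    (f : equivHom (C := C K) hε.isStable_ker) :
    ∃ c : GQ × GQ → PT.DualMod K A, IsCocycle₂ c ∧ PT.Linked hε S c f.1 := by
  classical
  haveI := free_subgroup ε.ker
  haveI : Module.Finite ℤ ε.ker :=
    Module.Finite.iff_addGroup_fg.mpr (AddGroup.fg_iff_addSubgroup_fg _ |>.mpr
      ((Submodule.fg_iff_addSubgroup_fg (AddSubgroup.toIntSubmodule ε.ker)).1
        (IsNoetherian.noetherian _)))
  let bas := Module.Free.chooseBasis ℤ ε.ker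
  choose J₀ hJ₀ using fun i => proj_surjective K (f.1 (bas i))
  choose Li hfd hn hle α hur hcap using fun i => PT.exists_capitulation hpS hK (J₀ i).toMul
  obtain ⟨L2, _, _, hur2, hK2, hLi⟩ := PT.exists_common_fields hK Li hur
  let x : Module.Free.ChooseBasisIndex ℤ ε.ker → J L2 := fun i =>
    haveI := hfd i
    haveI := hn i
    inclJ (hLi i) (inclJ (hle i) (J₀ i) - diag (Li i) (Additive.ofMul (α i)))
  let bb : ε.ker →+ J L2 := (bas.constr ℤ x).toAddMonoidHom
  have hbb : ∀ i, bb (bas i) = x i := fun i => Module.Basis.constr_basis bas ℤ x i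
  have hgood : ∀ s, bb s ∈ PT.divOrd L2 p (S : Set Nat.Primes) := fun s => by
    rw [← bas.sum_repr s, map_sum]
    refine sum_mem fun i _ => ?_
    rw [map_zsmul, hbb]
    refine zsmul_mem ?_ _
    haveI := hfd i
    haveI := hn i
    refine (PT.inclJ_mem_divOrd_iff (hLi i)).2 fun q hq g => ?_
    obtain ⟨n, hn'⟩ := hcap i q (by simpa using hq) (res (Li i) g)
    refine ⟨n, ?_⟩
    rw [← hn', sub_eq_add_neg, PT.normAt_add, PT.normAt_neg, ← div_eq_mul_inv,
      ← PT.norm_val_eq, ← PT.norm_val_eq]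
    congr 1
    exact congrArg norm (val_prinL (α i) q (res (Li i) g))
  have hproj : ∀ s, proj L2 (bb s) = Duality.inclC hK2 (f.1 s) := fun s => by
    rw [← bas.sum_repr s, map_sum, map_sum, map_sum, map_sum]
    refine Finset.sum_congr rfl fun i _ => ?_
    rw [map_zsmul, map_zsmul, map_zsmul, map_zsmul, hbb, ← hJ₀]
    congr 1
    haveI := hfd i
    haveI := hn i
    show proj L2 (inclJ (hLi i) _) = _
    rw [← inclC_proj, map_sub, proj_diag, sub_zero, ← inclC_proj, PT.inclC_trans]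
  have hker : ∀ (g : L2 ≃ₐ[ℚ] L2) (s : ε.ker), ∃ a : Additive L2ˣ, diag L2 a =
      g • bb (smulS hε.isStable_ker (levelRes hK2 g⁻¹) s) - bb s := fun g s => by
    have e0 : proj L2 (g • bb (smulS hε.isStable_ker (levelRes hK2 g⁻¹) s) - bb s) = 0 := by
      rw [map_sub, proj_smul, hproj, hproj, smul_inclC, ← f.2, smulS_smulS, ← map_mul,
        mul_inv_cancel, map_one, smulS_one, sub_self]
    obtain ⟨a, ha⟩ := (proj_eq_zero_iff L2).1 e0
    exact ⟨Additive.ofMul a, congrArg Additive.ofMul ha⟩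
  choose a ha using hker
  let a' : (L2 ≃ₐ[ℚ] L2) → ε.ker →+ Additive L2ˣ := fun g =>
    AddMonoidHom.mk' (a g) fun s t => PT.diag_injective L2 (by
      rw [map_add (diag L2), ha, ha, ha, smulS_add, map_add, smul_add, map_add]; abel)
  obtain ⟨L3, _, _, h3, hur3, a3, ha3⟩ := exists_extend_family hε hpS hur2 a' fun g x => by
    show diag L2 (a g _) ∈ _
    rw [ha]
    exact sub_mem (PT.smul_mem_divOrd g (hgood _)) (hgood _)
  let e : (L3 ≃ₐ[ℚ] L3) →
      PT.TwHom (levelRes (hK2.trans h3)) (Lat (K ≃ₐ[ℚ] K) ι) (Additive L3ˣ) :=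
    fun g => PT.TwHom.of (a3 (levelRes h3 g))
  have hco : ∀ g (s : ε.ker),
      g • inclJ h3 (bb (smulS hε.isStable_ker (levelRes (hK2.trans h3) g⁻¹) s)) - inclJ h3 (bb s) =
        diag L3 (e g s) := fun g s => by
    show _ = diag L3 (a3 (levelRes h3 g) s)
    rw [ha3, PT.diag_unitsIncl, smul_inclJ, ← map_sub]
    show _ = inclJ h3 (diag L2 (a (levelRes h3 g) s))
    rw [ha, ← map_inv (levelRes h3), PT.levelRes_levelRes]
  have hzero : ∀ g h (s : ε.ker), PT.dd e g h s = 0 := fun g h s => by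
    refine PT.diag_injective L3 ?_
    have eg := hco g s
    have egh := hco (g * h) s
    have eh := hco h (smulS hε.isStable_ker (levelRes (hK2.trans h3) g⁻¹) s)
    rw [smulS_smulS, ← map_mul, ← mul_inv_rev] at eh
    simp only [PT.dd, PT.TwHom.add_apply, PT.TwHom.sub_apply, PT.TwHom.smul_apply, map_add,
      map_sub, diag_smul, map_zero]
    erw [← eh, ← eg, ← egh]
    rw [smul_sub, ← mul_smul]
    abel
  choose m hm using fun x : (L3 ≃ₐ[ℚ] L3) × (L3 ≃ₐ[ℚ] L3) =>
    exists_pre_eq hε (PT.dd e x.1 x.2) (hzero x.1 x.2)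
  let c : GQ × GQ → PT.DualMod K A := fun x => PT.toQHom (m (res L3 x.1, res L3 x.2))
  have hl : PT.LinkAt hε S (hK2.trans h3) c f.1 ((inclJ h3).comp bb) e := by
    refine ⟨fun s => ?_, hco, fun x => ?_, fun g h => ?_⟩
    · rw [AddMonoidHom.comp_apply, ← inclC_proj, hproj, PT.inclC_trans]
    · exact (PT.inclJ_mem_divOrd_iff h3).2 (hgood _)
    · rw [← hm (res L3 g, res L3 h)]
      rfl
  exact ⟨c, isCocycle_of_link hε hl, L3, inferInstance, inferInstance, hK2.trans h3, hur3, _, _, hl⟩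

theorem dualMod_mem {ζ : QBar} (hζ : IsPrimitiveRoot ζ p) (hζK : ζ ∈ K) (hA : ∀ a : A, p • a = 0)
    (φ : PT.DualMod K A) (a : A) : (((φ a).toMul : QBarˣ) : QBar) ∈ K := by
  have h : (((φ a).toMul : QBarˣ) : QBar) ^ p = 1 := by
    rw [← Units.val_pow_eq_pow_val, ← toMul_nsmul, ← map_nsmul, hA, map_zero]
    rfl
  haveI : NeZero p := ⟨hp.out.ne_zero⟩
  obtain ⟨i, -, hi⟩ := hζ.eq_pow_of_pow_eq_one h
  rw [← hi]
  exact pow_mem hζK i

/-- Values of the dual lie in every field containing `K`. -/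
theorem exists_toQHom_eq (h : K ≤ L) {ζ : QBar} (hζ : IsPrimitiveRoot ζ p) (hζK : ζ ∈ K)
    (hA : ∀ a : A, p • a = 0) (φ : PT.DualMod K A) :
    ∃ ψ : PT.TwHom (levelRes h) A (Additive Lˣ), PT.toQHom ψ = φ := by
  have hl : ∀ a, ∃ y : Additive Lˣ, PT.unitsToQ L y = φ a := fun a =>
    ⟨Additive.ofMul (Units.mk0 ⟨_, h (dualMod_mem hζ hζK hA φ a)⟩
      fun h' => Units.ne_zero _ (congrArg Subtype.val h')), Additive.toMul.injective (Units.ext rfl)⟩
  choose y hy using hl
  exact ⟨PT.TwHom.of (AddMonoidHom.mk' y fun a b => PT.unitsToQ_injective L (by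
    rw [map_add, hy, hy, hy, map_add])), PT.TwHom.ext hy⟩

include hε in
/-- Coboundaries of level constant cochains are linked to zero. -/
theorem linked_coboundary {ζ : QBar} (hζ : IsPrimitiveRoot ζ p) (hζK : ζ ∈ K)
    (hK : K.IsUnramifiedOutside S) (m : GQ → PT.DualMod K A) (hm : IsLevelConstantS₁ S m) :
    PT.Linked hε S (fun x => PT.dd m x.1 x.2) 0 := by
  classical
  obtain ⟨F, hF, hFm⟩ := hm
  obtain ⟨L', _, _, hur, hle⟩ := PT.exists_normal_ur_ge (hF.sup hK)
  have hKL : K ≤ L' := le_sup_right.trans hle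
  have hres : ∀ g g', res L' g = res L' g' → m g' = m g := fun g g' e => by
    conv_lhs => rw [← mul_inv_cancel_left g g']
    exact hFm g _ (IntermediateField.fixingSubgroup_antitone (le_sup_left.trans hle)
      ((res_eq_iff L').mp e))
  choose ψ hψ using fun g => exists_toQHom_eq (L := L') hKL hζ hζK hε.killed (m g)
  let e : (L' ≃ₐ[ℚ] L') → PT.TwHom (levelRes hKL) (Lat (K ≃ₐ[ℚ] K) ι) (Additive L'ˣ) := fun σ =>
    PT.TwHom.pre ε (ψ (lift L' σ))
  have he : ∀ g, PT.toQHom (e (res L' g)) = PT.TwHom.pre ε (m g) := fun g => PT.TwHom.ext fun x => by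
    refine (congr_arg (fun φ : PT.DualMod K A => φ (ε x)) (hψ _)).trans ?_
    rw [hres g _ (res_lift L' _).symm]
    rfl
  refine ⟨L', inferInstance, inferInstance, hKL, hur, 0, e, fun s => ?_, fun g s => ?_,
    fun x => ?_, fun g h => ?_⟩
  · simp
  · simp only [AddMonoidHom.zero_apply, smul_zero, sub_zero, e, PT.TwHom.pre_apply,
      AddMonoidHom.mem_ker.1 s.2, map_zero]
  · exact zero_mem _
  · simp only [PT.dd, map_add, map_sub, ← he, PT.TwHom.pre_smul ε hε.map_smul, ← map_mul,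
      ← PT.smul_toQHom]

include hε in
/-- A cocycle linked to a map which is the sum of one extending to the lattice and a good one is a
coboundary. -/
theorem exists_cochain_of_linked (hpS : pPrime p ∈ S) (hK : K.IsUnramifiedOutside S)
    {c : GQ × GQ → PT.DualMod K A} {f : ε.ker →+ C K} (Y : Lat (K ≃ₐ[ℚ] K) ι →+ C K)
    (hY : ∀ (g : K ≃ₐ[ℚ] K) x, Y (g • x) = g • Y x) (w : equivHom (C := J K) hε.isStable_ker)
    (hw : ∀ x, w.1 (mulP hε.smul_mem x) ∈ PT.divOrd K p (S : Set Nat.Primes))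
    (hf : f = Y.comp ε.ker.subtype + (proj K).comp w.1) (hl : PT.Linked hε S c f) :
    ∃ m : GQ → PT.DualMod K A, IsLevelConstantS₁ S m ∧ ∀ g h, c (g, h) = PT.dd m g h := by
  classical
  obtain ⟨L', _, _, le, hur, b, e, hl⟩ := hl
  choose y hy using fun i : ι => proj_surjective K (Y (Lat.e i 1))
  let Yt : Lat (K ≃ₐ[ℚ] K) ι →+ J K := Lat.ofBasis fun i x => x • y i
  have hYt : ∀ (g : K ≃ₐ[ℚ] K) x, Yt (g • x) = g • Yt x :=
    fun g => Lat.map_smul_of_basis Yt g fun i x => by rw [Lat.ofBasis_e, Lat.ofBasis_e, mul_smul]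
  have hYp : (proj K).comp Yt = Y := Lat.hom_ext fun i x => by
    rw [AddMonoidHom.comp_apply, Lat.ofBasis_e, proj_smul, hy, ← hY, Lat.smul_e, mul_one]
  let z : ε.ker →+ J L' := b - (inclJ le).comp (Yt.comp ε.ker.subtype + w.1)
  have hz : ∀ s, ∃ a : Additive L'ˣ, diag L' a = z s := fun s => by
    have e0 : proj L' (z s) = 0 := by
      simp only [z, AddMonoidHom.sub_apply, AddMonoidHom.comp_apply, map_sub, ← inclC_proj,
        hl.proj_b, hf, AddMonoidHom.add_apply, map_add, AddSubgroup.coe_subtype]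
      rw [← DFunLike.congr_fun hYp (s : Lat (K ≃ₐ[ℚ] K) ι), AddMonoidHom.comp_apply, sub_self]
    obtain ⟨a, ha⟩ := (proj_eq_zero_iff L').1 e0
    exact ⟨Additive.ofMul a, congrArg Additive.ofMul ha⟩
  choose θ hθ using hz
  let θ' : Unit → ε.ker →+ Additive L'ˣ := fun _ =>
    AddMonoidHom.mk' θ fun s t => PT.diag_injective L' (by
      rw [map_add (diag L'), hθ, hθ, hθ, map_add])
  obtain ⟨L3, _, _, h3, hur3, a3, ha3⟩ := exists_extend_family hε hpS hur θ' fun _ x => by
    show diag L' (θ _) ∈ _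
    rw [hθ]
    simp only [z, AddMonoidHom.sub_apply, AddMonoidHom.comp_apply, AddMonoidHom.add_apply,
      AddSubgroup.coe_subtype, coe_mulP, map_nsmul]
    refine sub_mem (hl.good x) ((PT.inclJ_mem_divOrd_iff le).2 (add_mem ?_ (hw x)))
    exact nsmul_mem_divOrd hK _
  have hl3 := hl.push h3
  set e3 : (L3 ≃ₐ[ℚ] L3) → PT.TwHom (levelRes (le.trans h3)) (Lat (K ≃ₐ[ℚ] K) ι) (Additive L3ˣ) :=
    fun σ => PT.TwHom.of ((PT.unitsIncl h3).comp (e (levelRes h3 σ)).toHom) with he3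
  let T : PT.TwHom (levelRes (le.trans h3)) (Lat (K ≃ₐ[ℚ] K) ι) (Additive L3ˣ) :=
    PT.TwHom.of (a3 ())
  have hT : ∀ s : ε.ker, diag L3 (T s) = inclJ h3 (z s) := fun s => by
    show diag L3 (a3 () s) = _
    rw [ha3, PT.diag_unitsIncl]
    exact congrArg (inclJ h3) (hθ s)
  have hzero : ∀ g (s : ε.ker),
      (e3 g - (g • T - T) : PT.TwHom (levelRes (le.trans h3)) _ _) s = 0 := fun g s => by
    refine PT.diag_injective L3 ?_
    simp only [PT.TwHom.sub_apply, PT.TwHom.smul_apply, map_sub, map_zero, diag_smul]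
    rw [show levelRes (le.trans h3) g⁻¹ • (s : Lat (K ≃ₐ[ℚ] K) ι) =
      ((smulS hε.isStable_ker (levelRes (le.trans h3) g⁻¹) s : ε.ker) : Lat (K ≃ₐ[ℚ] K) ι) from rfl,
      hT, hT, ← hl3.coboundary]
    have hw2 : ∀ (g : K ≃ₐ[ℚ] K) s, w.1 (smulS hε.isStable_ker g s) = g • w.1 s := w.2
    simp only [z, AddMonoidHom.sub_apply, AddMonoidHom.comp_apply, AddMonoidHom.add_apply,
      AddSubgroup.coe_subtype, coe_smulS, map_sub, map_add, smul_sub, smul_add, hYt, hw2,
      ← smul_inclJ, ← PT.levelRes_levelRes le h3, smul_smul, mul_inv_cancel,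
      one_smul]
    abel
  choose m hm using fun g => exists_pre_eq hε (e3 g - (g • T - T)) (hzero g)
  refine ⟨fun g => PT.toQHom (m (res L3 g)), ⟨L3, hur3, fun g s hs => ?_⟩, fun g h => ?_⟩
  · show PT.toQHom (m (res L3 (g * s))) = PT.toQHom (m (res L3 g))
    rw [map_mul, (res_eq_one_iff L3).2 hs, mul_one]
  · have hpre : ∀ (σ τ : L3 ≃ₐ[ℚ] L3), PT.TwHom.pre ε (PT.dd m σ τ) = PT.dd e3 σ τ := fun σ τ => by
      simp only [PT.dd, map_add, map_sub, PT.TwHom.pre_smul ε hε.map_smul, hm, smul_sub, mul_smul]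
      abel
    refine pre_injective hε ?_
    rw [hl3.spec, ← hpre]
    refine Eq.trans (rfl : _ = PT.TwHom.pre ε (PT.toQHom (PT.dd m (res L3 g) (res L3 h)))) ?_
    simp only [PT.dd, map_add, map_sub, map_mul (res L3), PT.smul_toQHom]

end Fermat.Agent.CFT.PTLevel
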