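import Fermat.Agent.CFT.PT.Orders
import Fermat.Agent.CFT.Idele.SUnits

/-!
# Elements with orders divisible by `p` outside `S`

An idele with divisible orders has a `p`-th root up to units outside `S`; hence the elements of
`Kˣ` with divisible orders outside `S` are finitely many modulo `p`-th powers.
-/

set_option autoImplicit false
set_option linter.unusedSectionVars false
set_option linter.style.haveILetI false

noncomputable section

namespace Fermat.Agent.CFT.PTLevel

open ExtCitation Fermat.Agent.Arith IntermediateField Fermat.Agent.CFT.Local Fermat.Agent.CFT.Idele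
open Fermat.Agent.CFT.Duality

local instance factPrimeDivRoot (q : Nat.Primes) : Fact (q : ℕ).Prime := ⟨q.2⟩

open Classical in
/-- The exponent of `q ^ (p n)`. -/
def divExp (p q : ℕ) (r : ℝ) : ℤ :=
  if h : ∃ n : ℤ, r = (q : ℝ) ^ ((p : ℤ) * n) then h.choose else 0

theorem divExp_spec {p q : ℕ} {r : ℝ} (h : ∃ n : ℤ, r = (q : ℝ) ^ ((p : ℤ) * n)) :
    r = (q : ℝ) ^ ((p : ℤ) * divExp p q r) := by
  rw [divExp, dif_pos h]; exact h.choose_spec

theorem divExp_one {p q : ℕ} (hp : p ≠ 0) (hq : 1 < q) : divExp p q 1 = 0 := by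
  have h : ∃ n : ℤ, (1 : ℝ) = (q : ℝ) ^ ((p : ℤ) * n) := ⟨0, by simp⟩
  have e := divExp_spec h
  rw [← zpow_zero (q : ℝ)] at e
  have := zpow_right_injective₀ (Nat.cast_pos.mpr (by omega : 0 < q))
    (by exact_mod_cast hq.ne' : (q : ℝ) ≠ 1) e
  rcases mul_eq_zero.mp this.symm with h0 | h0
  · exact absurd (Int.natCast_eq_zero.mp h0) hp
  · simpa using h0

variable {K : IntermediateField ℚ QBar} [FiniteDimensional ℚ K] [Normal ℚ K]

/-- The prime `q` in the completion. -/
def qUnit (q : Nat.Primes) : (E K q)ˣ :=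
  Units.mk0 ((q : ℕ) : E K q) (Nat.cast_ne_zero.mpr q.2.ne_zero)

theorem smul_qUnit_zpow (q : Nat.Primes) (t : E K q ≃ₐ[ℚ_[(q : ℕ)]] E K q) (n : ℤ) :
    t • (qUnit q : (E K q)ˣ) ^ n = qUnit q ^ n := by
  refine Units.ext ?_
  show t (((qUnit q : (E K q)ˣ) ^ n : (E K q)ˣ) : E K q) = _
  rw [Units.val_zpow_eq_zpow_val, qUnit, Units.val_mk0, map_zpow₀, map_natCast]

theorem norm_qUnit_zpow (q : Nat.Primes) (n : ℤ) :
    ‖(((qUnit q : (E K q)ˣ) ^ n : (E K q)ˣ) : E K q)‖ = (q : ℝ) ^ (-n) := by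
  rw [Units.val_zpow_eq_zpow_val, qUnit, Units.val_mk0, norm_zpow,
    ← map_natCast (algebraMap ℚ_[(q : ℕ)] (E K q)), norm_algebraMap', Padic.norm_p, inv_zpow',]

/-- An idele with divisible orders outside `S` has a root up to units outside `S`. -/
theorem exists_root_norms {p : ℕ} (hp : p ≠ 0) {S : Set Nat.Primes} {x : J K}
    (hx : x ∈ PT.divOrd K p S) :
    ∃ z : J K, z ∈ supportedIn K Sᶜ ∧
      ∀ q ∉ S, ∀ g, PT.normAt K q g z ^ p = PT.normAt K q g x := by
  classical
  let v : Family K :=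
    { toFun := fun q σ => if q ∈ S then 1 else
        qUnit q ^ (-divExp p q ‖((val x.toMul q σ : (E K q)ˣ) : E K q)‖)
      equi := fun q t σ => by
        split_ifs
        · rw [smul_one]
        · rw [val_toGlobal_mul, smul_qUnit_zpow,
            show ‖((t • val x.toMul q σ : (E K q)ˣ) : E K q)‖ =
              ‖((val x.toMul q σ : (E K q)ˣ) : E K q)‖ from norm_algEquiv _ t _]
      cofinite := by
        obtain ⟨T, hT⟩ := val_mem_unitGroup_cofinite x.toMul
        refine ⟨T, fun q hq σ => ?_⟩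
        split_ifs
        · exact one_mem _
        · rw [mem_unitGroup, norm_qUnit_zpow, (mem_unitGroup _).mp (hT q hq σ),
            divExp_one hp q.2.one_lt, neg_neg, zpow_zero] }
  refine ⟨Additive.ofMul v.toIdl, fun q hq σ => ?_, fun q hq g => ?_⟩
  · rw [Set.mem_compl_iff, not_not] at hq
    rw [toMul_ofMul, Family.val_toIdl]
    exact if_pos hq
  · rw [← PT.norm_val_eq, toMul_ofMul, Family.val_toIdl]
    simp only [v, if_neg hq]
    have h : ∃ n : ℤ, ‖((val x.toMul q (res K g) : (E K q)ˣ) : E K q)‖ =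
        ((q : ℕ) : ℝ) ^ ((p : ℤ) * n) := by
      rw [PT.norm_val_eq]; exact hx q hq g
    rw [norm_qUnit_zpow, neg_neg, ← zpow_natCast, ← zpow_mul, mul_comm, ← PT.norm_val_eq,
      ← divExp_spec h]

theorem normAt_diag (q : Nat.Primes) (g : GQ) (b : Kˣ) :
    PT.normAt K q g (diag K (Additive.ofMul b)) = ‖emb q (g (((b : K)) : QBar))‖ := rfl

/-- The elements with divisible orders outside `S` have finitely many classes modulo `p`-th
powers. -/
theorem exists_reps {p : ℕ} [hp : Fact p.Prime] (hp2 : p ≠ 2) {ζ : QBar}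
    (hζ : IsPrimitiveRoot ζ p) (hζK : ζ ∈ K) (S : Finset Nat.Primes) :
    ∃ R : Finset Kˣ, (∀ c ∈ R, diag K (Additive.ofMul c) ∈ PT.divOrd K p (S : Set Nat.Primes)) ∧
      ∀ b : Kˣ, diag K (Additive.ofMul b) ∈ PT.divOrd K p (S : Set Nat.Primes) →
        ∃ c ∈ R, ∃ y : Kˣ, b = c * y ^ p := by
  classical
  obtain ⟨S', hS', hgood⟩ := exists_goodSet hp2 hζ hζK (p := p) (K := K) S
  haveI : Finite (ModP p (sUnits S' K)) := Nat.finite_of_card_ne_zero hgood.card
  set W := {b : Kˣ | diag K (Additive.ofMul b) ∈ PT.divOrd K p (S : Set Nat.Primes)}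
  set j := Units.map (K.val.toRingHom.toMonoidHom)
  have hrep : ∀ b : W, ∃ (y : Kˣ) (u : sUnits S' K), (u : QBarˣ) = j (b.1 * y ^ p) := fun b => by
    obtain ⟨z, -, hz⟩ := exists_root_norms hp.out.ne_zero b.2
    obtain ⟨c, hc, hcz⟩ := hgood.gen (z.toMul : PreIdele) z.toMul.2
    let y : Kˣ := Units.mk0 ⟨(c : QBar), hc⟩ fun h => c.ne_zero (congrArg Subtype.val h)
    refine ⟨y, ⟨j (b.1 * y ^ p), mem_sUnits.mpr ⟨((b.1 * y ^ p : Kˣ) : K).2, fun q hq g => ?_⟩⟩, rfl⟩
    have hqS : q ∉ (S : Set Nat.Primes) := fun h => hq (hS' (Finset.mem_coe.mp h))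
    have h1 : PT.normAt K q g z * ‖emb q (g (c : QBar))‖ = 1 := by
      have h := hcz.2 q hq g
      rw [Pi.mul_apply, Pi.mul_apply, Units.val_mul, norm_mul, prin_val] at h
      exact h
    show ‖emb q (g ((((b.1 * y ^ p : Kˣ) : K)) : QBar))‖ = 1
    rw [Units.val_mul, Units.val_pow_eq_pow_val]
    show ‖emb q (g ((((b.1 : Kˣ) : K) : QBar) * (c : QBar) ^ p))‖ = 1
    rw [map_mul, map_mul, map_pow, map_pow, norm_mul, norm_pow, ← normAt_diag, ← hz q hqS g,
      ← mul_pow, h1, one_pow]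
  choose Y U hU using hrep
  let f : W → ModP p (sUnits S' K) := fun b => modClass p (U b)
  haveI : Fintype (Set.range f) := Fintype.ofFinite _
  refine ⟨Finset.univ.image fun v : Set.range f => (v.2.choose : W).1, fun c hc => ?_,
    fun b hb => ?_⟩
  · obtain ⟨v, -, rfl⟩ := Finset.mem_image.mp hc
    exact (v.2.choose : W).2
  · set b' : W := ⟨b, hb⟩
    have hv : f b' ∈ Set.range f := ⟨b', rfl⟩
    set c : W := hv.choose
    have hc : f c = f b' := hv.choose_spec
    refine ⟨c.1, Finset.mem_image.mpr ⟨⟨f b', hv⟩, Finset.mem_univ _, rfl⟩, ?_⟩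
    obtain ⟨w, hw⟩ := (modClass_eq_zero_iff (U b' * (U c)⁻¹)).mp (by
      rw [modClass_mul, show modClass p (U c)⁻¹ = -modClass p (U c) from rfl]
      exact (sub_eq_add_neg _ _).symm.trans (sub_eq_zero.mpr hc.symm))
    let w' : Kˣ := Units.mk0 ⟨((w : QBarˣ) : QBar), sUnits_le S' K w.2⟩
      fun h => Units.ne_zero (w : QBarˣ) (congrArg Subtype.val h)
    refine ⟨Y c * (Y b')⁻¹ * w', ?_⟩
    have e : ((U b' : sUnits S' K) : QBarˣ) =
        ((U c : sUnits S' K) : QBarˣ) * (w : QBarˣ) ^ p := by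
      rw [← SubmonoidClass.coe_pow, hw, Subgroup.coe_mul, InvMemClass.coe_inv,
        mul_comm (U b' : QBarˣ), mul_inv_cancel_left]
    rw [hU, hU, show (w : QBarˣ) = j w' from Units.ext rfl, ← map_pow, ← map_mul] at e
    have hj : Function.Injective j := fun x y h => Units.ext (Subtype.ext (congrArg Units.val h))
    have e' := hj e
    rw [mul_pow, mul_pow, inv_pow, ← mul_assoc, ← mul_assoc, mul_right_comm, ← e',
      mul_inv_cancel_right]

end Fermat.Agent.CFT.PTLevel
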