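import Fermat.Agent.CFT.PTLevel.Bridge
import Fermat.Agent.CFT.PT.Arith.Level

/-!
# The duality for a finite Galois module unramified outside `S`
-/

set_option autoImplicit false
set_option linter.unusedSectionVars false
set_option linter.style.haveILetI false

noncomputable section

namespace Fermat.Agent.CFT.PTLevel

open CategoryTheory Module ExtCitation Fermat.Agent.Arith IntermediateField
open Fermat.Agent.CFT.Local Fermat.Agent.CFT.Idele Fermat.Agent.CFT.Duality groupCohomology

variable {p : ℕ} [hp : Fact p.Prime]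

/-- A representation trivial on the subgroup fixing a normal field is one of its Galois group. -/
theorem exists_level_hom {D : Rep (ZMod p) GQ} {K : IntermediateField ℚ QBar} [Normal ℚ K]
    (hD : ∀ g ∈ K.fixingSubgroup, D.ρ g = 1) :
    ∃ φ : (K ≃ₐ[ℚ] K) →* Module.End (ZMod p) D, ∀ g, φ (res K g) = D.ρ g := by
  have hwd : ∀ g g', res K g = res K g' → D.ρ g = D.ρ g' := fun g g' h => by
    conv_rhs => rw [← mul_inv_cancel_left g g', map_mul, hD _ ((res_eq_iff K).1 h), mul_one]
  exact ⟨{ toFun := fun σ => D.ρ (lift K σ)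
           map_one' := by rw [hwd (lift K 1) 1 (by rw [res_lift, map_one]), map_one]
           map_mul' := fun σ τ => by
             rw [hwd (lift K (σ * τ)) (lift K σ * lift K τ)
               (by simp only [map_mul, res_lift]), map_mul] }, fun g => hwd _ _ (res_lift K _)⟩

/-- The cyclotomic character on a primitive root. -/
theorem apply_zeta_cycloChar {ζ : QBar} (hζ : IsPrimitiveRoot ζ p) (g : GQ) :
    g ζ = ζ ^ (cycloChar p g : ZMod p).val := by
  haveI : NeZero p := ⟨hp.out.ne_zero⟩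
  have ht := (mem_rootsOfUnity p (hζ.isUnit hp.out.ne_zero).unit).mpr
    (Units.ext (by rw [Units.val_pow_eq_pow_val, IsUnit.unit_spec, hζ.pow_eq_one]; rfl))
  have h := modularCyclotomicCharacter.spec QBar (card_rootsOfUnity_eq_self p)
    (g : QBar ≃+* QBar) ht
  rw [IsUnit.unit_spec] at h
  exact h

theorem cycloChar_eq_one {ζ : QBar} (hζ : IsPrimitiveRoot ζ p) {g : GQ} (hg : g ζ = ζ) :
    cycloChar p g = 1 := by
  have h := apply_zeta_cycloChar hζ g
  rw [hg] at h
  refine Units.ext (ZMod.val_injective p ?_)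
  refine hζ.pow_inj (ZMod.val_lt _) (ZMod.val_lt _) ?_
  rw [← h, Units.val_one, ZMod.val_one, pow_one]

/-- The action on the powers of a primitive root. -/
theorem smul_zmap {ζ : QBar} (hζ : IsPrimitiveRoot ζ p) (g : GQ) (x : ZMod p) :
    g • zmap hζ x = zmap hζ ((cycloChar p g : ZMod p) * x) := by
  haveI : NeZero p := ⟨hp.out.ne_zero⟩
  refine Additive.toMul.injective (Units.ext ?_)
  show g ((zmap hζ x).toMul : QBar) = _
  rw [coe_zmap, coe_zmap, map_pow, apply_zeta_cycloChar hζ g, ← pow_mul, ← zeta_pow_val hζ,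
    Nat.cast_mul, ZMod.natCast_zmod_val, ZMod.natCast_zmod_val]

/-- Poitou–Tate duality between `Ш¹` of the Cartier dual and `Ш²`. -/
theorem exists_sha_duality (hp2 : p ≠ 2) (S : Finset Nat.Primes) (hpS : pPrime p ∈ S)
    (M : Rep (ZMod p) GQ) [FiniteDimensional (ZMod p) M]
    (hsm : ∀ m : M, ∃ F : IntermediateField ℚ QBar, FiniteDimensional ℚ F ∧
      ∀ s ∈ F.fixingSubgroup, M.ρ s m = m)
    (hMur : ∀ q : Nat.Primes, q ∉ S → ∀ A : ValuationSubring QBar,
      A.LiesOverPrime (q : ℕ) → ∀ g ∈ A.inertiaSubgroupIn ℚ, M.ρ g = 1) :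
    ∃ B : sha₁ S (M.dualTwist (cycloChar p)) →ₗ[ZMod p] sha₂ S M →ₗ[ZMod p] ZMod p,
      (∀ y, (∀ x, B y x = 0) → y = 0) ∧ (∀ x, (∀ y, B y x = 0) → x = 0) := by
  classical
  obtain ⟨K, _, _, hK, ⟨ζ, hζK, hζ⟩, hKM⟩ := PT.exists_level S hpS M hsm hMur
  set D := M.dualTwist (cycloChar p) with hDdef
  have hDK : ∀ g ∈ K.fixingSubgroup, D.ρ g = 1 := fun g hg => by
    refine LinearMap.ext fun f => ?_
    rw [Rep.dualTwist_ρ_apply, cycloChar_eq_one hζ
      ((IntermediateField.mem_fixingSubgroup_iff _ _).1 hg ζ hζK), hKM _ (inv_mem hg)]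
    simp [Module.End.one_eq_id]
  obtain ⟨φ, hφ⟩ := exists_level_hom hDK
  letI : DistribMulAction (K ≃ₐ[ℚ] K) D := DistribMulAction.compHom D φ
  have hD : ∀ (g : GQ) (a : D), res K g • a = D.ρ g a := fun g a => by
    show φ (res K g) a = _
    rw [hφ]
  set e := zmap hζ
  have he : Function.Injective e := zmap_injective hζ
  let Θ₀ : M →+ PT.DualMod K D := AddMonoidHom.mk'
    (fun m => PT.TwHom.of (e.comp (AddMonoidHom.mk' (fun a : D => (a : Module.Dual (ZMod p) M) m)
      fun a b => LinearMap.add_apply a b m)))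
    fun m m' => PT.TwHom.ext fun a => by
      show e ((a : Module.Dual (ZMod p) M) (m + m')) = e (a m) + e (a m')
      rw [map_add, map_add]
  have hsur : Function.Surjective Θ₀ := fun ψ => by
    have hval : ∀ a : D, ∃ x, e x = ψ a := fun a =>
      exists_zmap_eq hζ (PT.nsmul_apply_eq_zero (ZModModule.char_nsmul_eq_zero p) ψ a)
    choose x hx using hval
    let l : D →+ ZMod p := AddMonoidHom.mk' x fun a b => he (by
      rw [map_add e, hx, hx, hx, map_add ψ])
    obtain ⟨m, hm⟩ := (Module.evalEquiv (ZMod p) M).surjective (AddMonoidHom.toZModLinearMap p l)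
    refine ⟨m, PT.TwHom.ext fun a => ?_⟩
    show e ((a : Module.Dual (ZMod p) M) m) = ψ a
    rw [← hx a]
    exact congrArg e (LinearMap.congr_fun hm a)
  have hinj : Function.Injective Θ₀ := (injective_iff_map_eq_zero _).2 fun m h =>
    (Module.forall_dual_apply_eq_zero_iff (ZMod p) m).1 fun l => he (by
      rw [map_zero]
      exact congr_arg (fun ψ : PT.DualMod K D => ψ (l : D)) h)
  let Θ := AddEquiv.ofBijective Θ₀ ⟨hinj, hsur⟩
  have hΘ : ∀ (g : GQ) (m : M), Θ (M.ρ g m) = g • Θ m := fun g m => PT.TwHom.ext fun a => by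
    rw [PT.TwHom.smul_apply, hD]
    show e ((a : Module.Dual (ZMod p) M) (M.ρ g m)) =
      g • e ((D.ρ g⁻¹ a : Module.Dual (ZMod p) M) m)
    rw [Rep.dualTwist_ρ_apply, LinearMap.smul_apply, smul_eq_mul, smul_zmap, ← mul_assoc,
      ← Units.val_mul, ← map_mul, mul_inv_cancel, map_one, Units.val_one, one_mul,
      LinearMap.comp_apply, inv_inv]
  haveI : Finite D := Module.finite_of_finite (ZMod p)
  letI : Fintype D := Fintype.ofFinite D
  let ε : Lat (K ≃ₐ[ℚ] K) D →+ D := Lat.ofBasis fun a x => x • a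
  have hε : Presentation p ε := ⟨fun a => ⟨Lat.e a 1, by rw [Lat.ofBasis_e, one_smul]⟩,
    fun g => Lat.map_smul_of_basis ε g fun i x => by
      rw [Lat.ofBasis_e, Lat.ofBasis_e, mul_smul],
    ZModModule.char_nsmul_eq_zero p⟩
  exact exists_sha_pairing hp2 hpS hD Θ hΘ hε hζ hζK hK

end Fermat.Agent.CFT.PTLevel
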