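import Fermat.Agent.CFT.PTLevel.DivRoot
import Fermat.Agent.CFT.PT.Arith.Roots
import Fermat.Agent.CFT.Idele.KummerDual
import Fermat.Agent.CFT.Idele.KummerStep

/-!
# The level field

Over `K ∋ ζ_p` unramified outside `S`, the `p`-th roots of all elements with divisible orders
outside `S` generate a normal field `L`: a `p`-extension through which every `p`-torsion character
of `K` unramified outside `S` factors.
-/

set_option autoImplicit false
set_option linter.unusedSectionVars false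
set_option linter.style.haveILetI false

noncomputable section

namespace Fermat.Agent.CFT.PTLevel

open ExtCitation Fermat.Agent.Arith IntermediateField Fermat.Agent.CFT.Local Fermat.Agent.CFT.Idele
open Fermat.Agent.CFT.Duality groupCohomology

local instance factPrimeField (q : Nat.Primes) : Fact (q : ℕ).Prime := ⟨q.2⟩

variable {p : ℕ} [hp : Fact p.Prime] {S : Finset Nat.Primes}

variable {K : IntermediateField ℚ QBar} [FiniteDimensional ℚ K] [Normal ℚ K]

/-- The hypotheses on the level field. -/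
structure LevelField (p : ℕ) (S : Finset Nat.Primes) {K L : IntermediateField ℚ QBar}
    [FiniteDimensional ℚ K] [Normal ℚ K] [FiniteDimensional ℚ L] [Normal ℚ L] (le : K ≤ L) :
    Prop where
  ur : L.IsUnramifiedOutside S
  isPGroup : IsPGroup p (levelRes le).ker
  root_mem : ∀ b : Kˣ, diag K (Additive.ofMul b) ∈ PT.divOrd K p (S : Set Nat.Primes) →
    ∀ β : QBar, β ^ p = ((b : K) : QBar) → β ∈ L

theorem exists_levelField (hp2 : p ≠ 2) {ζ : QBar} (hζ : IsPrimitiveRoot ζ p) (hζK : ζ ∈ K)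
    (hpS : pPrime p ∈ S) (hK : K.IsUnramifiedOutside S) :
    ∃ (L : IntermediateField ℚ QBar) (_ : FiniteDimensional ℚ L) (_ : Normal ℚ L) (le : K ≤ L),
      LevelField p S le := by
  classical
  obtain ⟨R, hR, hRgen⟩ := exists_reps hp2 hζ hζK S
  set T : Finset QBar := R.image fun c : Kˣ => rootP p ((c : K) : QBar)
  choose F hF hyF using fun y : T => show ∃ F : IntermediateField ℚ QBar,
      F.IsUnramifiedOutside S ∧ (y : QBar) ∈ F by
    obtain ⟨c, hc, hcy⟩ := Finset.mem_image.mp y.2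
    obtain ⟨F, -, -, hF, -, hyF⟩ := PT.exists_ur_root hpS hK c 1 (fun q hq σ => by
      obtain ⟨n, hn⟩ := hR c hc q (by simpa using hq) (lift K σ)
      refine ⟨n, ?_⟩
      rw [normAt_diag] at hn
      rw [pow_one]
      refine Eq.trans ?_ hn
      conv_lhs => rw [← res_lift K σ, PT.norm_localEmb_res])
      (rootP p ((c : K) : QBar)) (by rw [pow_one]; exact rootP_pow _)
    exact ⟨F, hF, hcy ▸ hyF⟩
  obtain ⟨L₀, -, -, hL₀, hKL₀, hFL₀⟩ := PT.exists_common_fields hK F hF
  have hT : ∀ y ∈ T, y ∈ L₀ := fun y hy => hFL₀ ⟨y, hy⟩ (hyF _)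
  clear hyF hFL₀ hF F
  haveI := hL₀.1
  set F := K ⊔ IntermediateField.adjoin ℚ (T : Set QBar)
  have hFL : F ≤ L₀ := sup_le hKL₀ (IntermediateField.adjoin_le_iff.mpr hT)
  have hFur := hL₀.of_le hFL
  haveI := hFur.1
  have hKF : K ≤ F := le_sup_left
  have hroot : ∀ b : Kˣ, diag K (Additive.ofMul b) ∈ PT.divOrd K p (S : Set Nat.Primes) →
      ∀ β : QBar, β ^ p = ((b : K) : QBar) → β ∈ F := fun b hb β hβ => by
    obtain ⟨c, hc, y, rfl⟩ := hRgen b hb
    have hc0 : ((c : K) : QBar) ≠ 0 := fun h => c.ne_zero (Subtype.ext h)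
    have hy0 : ((y : K) : QBar) ≠ 0 := fun h => y.ne_zero (Subtype.ext h)
    obtain ⟨i, -, hi⟩ := exists_eq_zeta_pow_mul hζ (mul_ne_zero (rootP_ne_zero (p := p) hc0) hy0)
      (β := β) (by rw [hβ, mul_pow, rootP_pow]; simp)
    rw [hi]
    refine mul_mem (pow_mem (hKF hζK) i) (mul_mem ?_ (hKF (SetLike.coe_mem _)))
    exact le_sup_right (a := K) (IntermediateField.subset_adjoin _ _
      (Finset.mem_coe.mpr (Finset.mem_image.mpr ⟨c, hc, rfl⟩)))
  haveI hFn : Normal ℚ F := by
    refine IntermediateField.normal_iff_forall_map_le'.mpr fun σ => ?_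
    have hKm : K.map (σ : QBar →ₐ[ℚ] QBar) ≤ F := (IntermediateField.normal_iff_forall_map_le'.mp
      ‹Normal ℚ K› σ).trans hKF
    rw [IntermediateField.map_sup, IntermediateField.adjoin_map]
    refine sup_le hKm (IntermediateField.adjoin_le_iff.mpr ?_)
    rintro _ ⟨_, hy, rfl⟩
    obtain ⟨c, hc, rfl⟩ := Finset.mem_image.mp (Finset.mem_coe.mp hy)
    refine hroot (res K σ • c) ?_ _ ?_
    · rw [show Additive.ofMul (res K σ • c) = res K σ • Additive.ofMul c from rfl, diag_smul]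
      exact PT.smul_mem_divOrd _ (hR c hc)
    · show (σ (rootP p ((c : K) : QBar))) ^ p = (((res K σ (c : K)) : K) : QBar)
      rw [← map_pow, rootP_pow, res_apply]
  refine ⟨F, inferInstance, hFn, hKF, hFur, fun ⟨n, hn⟩ => ⟨1, Subtype.ext ?_⟩, hroot⟩
  obtain ⟨g, rfl⟩ := AlgEquiv.restrictNormalHom_surjective (K₁ := F) QBar n
  have hg : g ∈ K.fixingSubgroup := by
    rw [← res_eq_one_iff, ← levelRes_res hKF]; exact MonoidHom.mem_ker.mp hn
  show (res F g) ^ (p ^ 1) = 1
  rw [pow_one, ← map_pow, res_eq_one_iff, IntermediateField.fixingSubgroup_sup]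
  refine ⟨pow_mem hg p, ?_⟩
  refine (IntermediateField.mem_fixingSubgroup_iff _ _).mpr ?_
  refine (forall_mem_adjoin_smul_eq_self_iff ℚ (g ^ p)).mpr fun y hy => ?_
  obtain ⟨c, -, rfl⟩ := Finset.mem_image.mp (Finset.mem_coe.mp hy)
  exact (kum_eq_zero_iff hζ hζK (pow_mem hg p) (SetLike.coe_mem _)
    (fun h => c.ne_zero (Subtype.ext h)) (rootP_pow _)).mp
    (by rw [kum_pow_mul hζ hζK hg (SetLike.coe_mem _) (fun h => c.ne_zero (Subtype.ext h)),
      ZMod.natCast_self, zero_mul])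

variable {L : IntermediateField ℚ QBar} [FiniteDimensional ℚ L] [Normal ℚ L] {le : K ≤ L}

/-- Characters of `K` unramified outside `S` killed by `p` factor through the level field. -/
theorem LevelField.hom_eq_zero (hL : LevelField p S le) {ζ : QBar} (hζ : IsPrimitiveRoot ζ p)
    (hζK : ζ ∈ K) {A : Type*} [AddCommGroup A] [Module (ZMod p) A] {F : IntermediateField ℚ QBar}
    (hF : F.IsUnramifiedOutside S) (φ : GQ → A)
    (hφ : ∀ g s, g ∈ K.fixingSubgroup → s ∈ K.fixingSubgroup → φ (g * s) = φ g + φ s)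
    (hFφ : ∀ g ∈ K.fixingSubgroup, ∀ s ∈ F.fixingSubgroup, φ (g * s) = φ g) {s : GQ}
    (hs : s ∈ L.fixingSubgroup) : φ s = 0 := by
  classical
  have hK : K.IsUnramifiedOutside S := hL.ur.of_le le
  obtain ⟨F', _, _, hF'ur, hle⟩ := PT.exists_normal_ur_ge (hF.sup hK)
  have hKF : K ≤ F' := le_sup_right.trans hle
  have hFF : F ≤ F' := le_sup_left.trans hle
  refine (Module.forall_dual_apply_eq_zero_iff (ZMod p) (φ s)).mp fun l => ?_
  let χ : (levelRes hKF).ker → ZMod p := fun n => l (φ (lift F' n.1))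
  have hmemK : ∀ n : (levelRes hKF).ker, lift F' n.1 ∈ K.fixingSubgroup := fun n => by
    rw [← res_eq_one_iff, ← levelRes_res hKF, res_lift]; exact MonoidHom.mem_ker.mp n.2
  have hwd : ∀ g ∈ K.fixingSubgroup, ∀ g', res F' g = res F' g' → φ g' = φ g := fun g hg g' e => by
    conv_lhs => rw [← mul_inv_cancel_left g g']
    exact hFφ g hg _ (IntermediateField.fixingSubgroup_antitone hFF ((res_eq_iff F').mp e))
  set ζF : F'ˣ := Units.mk0 ⟨ζ, hKF hζK⟩
    fun h => hζ.ne_zero hp.out.ne_zero (congrArg Subtype.val h)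
  have hζfix : ∀ n : (levelRes hKF).ker, (n : F' ≃ₐ[ℚ] F') • ζF = ζF := fun n => by
    refine Units.ext (Subtype.ext ?_)
    show (((n.1 ⟨ζ, hKF hζK⟩) : F') : QBar) = ζ
    rw [← res_lift F' n.1, res_apply]
    exact (IntermediateField.mem_fixingSubgroup_iff _ _).mp (hmemK n) ζ hζK
  have hζF : ∀ a b : ℕ, (a : ZMod p) = b → ζF ^ a = ζF ^ b := fun a b h => by
    refine Units.ext (Subtype.ext ?_)
    show ζ ^ a = ζ ^ b
    rw [← zeta_pow_val hζ a, h, zeta_pow_val hζ b]
  have hcoc : IsCocycle₁ fun n : (levelRes hKF).ker => Additive.ofMul (ζF ^ (χ n).val) := by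
    intro m n
    refine congrArg Additive.ofMul ?_
    show ζF ^ (χ (m * n)).val = (m : F' ≃ₐ[ℚ] F') • ζF ^ (χ n).val * ζF ^ (χ m).val
    rw [smul_pow', hζfix, ← pow_add]
    refine hζF _ _ ?_
    push_cast
    rw [ZMod.natCast_zmod_val, ZMod.natCast_zmod_val, ZMod.natCast_zmod_val, add_comm]
    show l (φ _) = l (φ _) + l (φ _)
    rw [← map_add, ← hφ _ _ (hmemK m) (hmemK n)]
    refine congrArg l (hwd _ (mul_mem (hmemK m) (hmemK n)) _ ?_)
    rw [map_mul]
    simp only [res_lift, Subgroup.coe_mul]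
  obtain ⟨β₀, hβ₀⟩ := h1Zero_units (levelRes hKF).ker _ hcoc
  set β : QBar := (((β₀.toMul : F'ˣ) : F') : QBar) with hβdef
  have hact : ∀ n : (levelRes hKF).ker, lift F' n.1 β = ζ ^ (χ n).val * β := fun n => by
    have e : (n : F' ≃ₐ[ℚ] F') • β₀.toMul / β₀.toMul = ζF ^ (χ n).val :=
      congrArg Additive.toMul (hβ₀ n)
    rw [div_eq_iff_eq_mul] at e
    have e' := congrArg (fun u : F'ˣ => (((u : F') : QBar))) e
    simp only [Units.val_mul, Units.val_pow_eq_pow_val, MulMemClass.coe_mul,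
      SubmonoidClass.coe_pow] at e'
    refine Eq.trans ?_ e'
    show lift F' n.1 β = ((n.1 ((β₀.toMul : F'ˣ) : F') : F') : QBar)
    conv_rhs => rw [← res_lift F' n.1, res_apply]
  have hres : ∀ g ∈ K.fixingSubgroup, res F' g ∈ (levelRes hKF).ker := fun g hg => by
    rw [MonoidHom.mem_ker, levelRes_res, res_eq_one_iff]; exact hg
  have hgβ : ∀ g ∈ K.fixingSubgroup, g β = ζ ^ (l (φ g)).val * β := fun g hg => by
    have e := hact ⟨_, hres g hg⟩
    have hgl : res F' (lift F' (res F' g)) = res F' g := res_lift _ _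
    have e1 : lift F' (res F' g) β = g β := by
      show lift F' (res F' g) (((β₀.toMul : F'ˣ) : F') : QBar) = _
      rw [← res_apply, hgl, res_apply]
    rw [e1] at e
    simp only [χ] at e
    rwa [hwd g hg _ hgl.symm] at e
  have hβ0 : β ≠ 0 := fun h => (β₀.toMul : F'ˣ).ne_zero (Subtype.ext h)
  have hbK : β ^ p ∈ K := by
    rw [← InfiniteGalois.fixedField_fixingSubgroup K, IntermediateField.mem_fixedField_iff]
    intro g hg
    rw [map_pow, hgβ g hg, mul_pow, ← pow_mul, mul_comm, mul_comm _ p, pow_mul, hζ.pow_eq_one,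
      one_pow, mul_one]
  set b : Kˣ := Units.mk0 ⟨β ^ p, hbK⟩ fun h => pow_ne_zero p hβ0 (congrArg Subtype.val h)
  have hb : diag K (Additive.ofMul b) ∈ PT.divOrd K p (S : Set Nat.Primes) := fun q hq g => by
    obtain ⟨n, hn⟩ := PT.exists_norm_eq_zpow_of_ur F' hF'ur (by simpa using hq : q ∉ S)
      (Units.map (localEmb (q : ℕ) F').toMonoidHom (res F' g • β₀.toMul))
    refine ⟨n, ?_⟩
    have hn' : ‖emb q (g β)‖ = (q : ℝ) ^ n := (PT.norm_localEmb_res (L := F') (q : ℕ) g _).symm.trans hn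
    rw [normAt_diag]
    show ‖emb q (g (β ^ p))‖ = _
    rw [map_pow, map_pow, norm_pow, hn', ← zpow_natCast, ← zpow_mul, mul_comm]
  have hβL := hL.root_mem b hb β rfl
  have hsK := IntermediateField.fixingSubgroup_antitone le hs
  have h1 := hgβ s hsK
  rw [(IntermediateField.mem_fixingSubgroup_iff _ _).mp hs β hβL] at h1
  have h2 : ζ ^ (l (φ s)).val = 1 := mul_right_cancel₀ hβ0 (by rw [one_mul, ← h1])
  by_contra hne
  exact hζ.pow_ne_one_of_pos_of_lt (by rwa [Ne, ZMod.val_eq_zero]) (ZMod.val_lt _) h2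

end Fermat.Agent.CFT.PTLevel
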