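import Fermat.Agent.CFT.PTLevel.Field
import Fermat.Agent.CFT.Duality.Semilocal

/-!
# Norms from the level field

Every norm from the level field is a `p`-th power times a unit family off `S`.
-/

set_option autoImplicit false
set_option linter.unusedSectionVars false
set_option linter.style.haveILetI false

noncomputable section

namespace Fermat.Agent.CFT.PTLevel

open ExtCitation Fermat.Agent.Arith IntermediateField Fermat.Agent.CFT.Local Fermat.Agent.CFT.Idele
open Fermat.Agent.CFT.Duality groupCohomology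

local instance factPrimeNormHyp (q : Nat.Primes) : Fact (q : ℕ).Prime := ⟨q.2⟩

variable {p : ℕ} [hp : Fact p.Prime] {S : Finset Nat.Primes}
  {K : IntermediateField ℚ QBar} [FiniteDimensional ℚ K] [Normal ℚ K]

/-- An idele in `Kˣ`, local `p`-th powers and unit families off `S` is a `p`-th power times a unit
family off `S`, as a class. -/
theorem exists_class_of_mem {S' : Finset Nat.Primes} (hSS : S ⊆ S') {f : idl K}
    (hf : (f : PreIdele) ∈ (prinSub K ⊔ powAt p S' K) ⊔ unitsOffP (S : Set Nat.Primes) K) :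
    ∃ c : C K, ∃ w ∈ unitsOff K (S : Set Nat.Primes),
      proj K (Additive.ofMul f) = p • c + proj K w := by
  classical
  obtain ⟨a, ha, w, hw, haw⟩ := Subgroup.mem_sup.mp hf
  obtain ⟨_, ⟨c, hc, rfl⟩, u, hu, rfl⟩ := Subgroup.mem_sup.mp ha
  obtain ⟨v, hv⟩ := compHom_surjective (K := K) S' fun i =>
    Units.mk0 (⟨_, (hu.2 i.1 i.1.2 i.2.out (placeRep_out i.2)).choose_spec.1⟩ : placeField i)
      (fun h => Units.ne_zero (u i.1 i.2.out) (by
        rw [← (hu.2 i.1 i.1.2 i.2.out (placeRep_out i.2)).choose_spec.2,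
          show (hu.2 i.1 i.1.2 i.2.out (placeRep_out i.2)).choose = 0 from congrArg Subtype.val h,
          zero_pow hp.out.ne_zero]))
  set w' : idl K := ⟨u, hu.1.1⟩ / (⟨v, v.2.1⟩ : idl K) ^ p with hw'
  have hone : ∀ q ∈ S', ∀ g, (((w' : PreIdele) q g : (Ω q)ˣ) : Ω q) = 1 := fun q hq g => by
    have hrep : ∀ r, placeRep q K r = r → (((w' : PreIdele) q r : (Ω q)ˣ) : Ω q) = 1 := fun r hr => by
      set i : SPlace S' K := ⟨⟨q, hq⟩, Quotient.mk (placeSetoid q K) r⟩
      have hi : i.2.out = r := hr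
      have h1 : (((v : PreIdele) q r : (Ω q)ˣ) : Ω q) ^ p = ((u q r : (Ω q)ˣ) : Ω q) := by
        rw [← hi, ← coe_compHom v i, hv, Units.val_mk0]
        exact (hu.2 i.1 i.1.2 i.2.out (placeRep_out i.2)).choose_spec.2
      rw [hw']
      show ((u q r / (v : PreIdele) q r ^ p : (Ω q)ˣ) : Ω q) = 1
      rw [Units.val_div_eq_div_val, Units.val_pow_eq_pow_val, h1, div_self (Units.ne_zero _)]
    obtain ⟨τ, s, hs, e⟩ := placeRep_spec (q := q) (K := K) g
    rw [e, apply_eq_of_rep w'.2 q τ _ hs, hrep _ (placeRep_idem g), map_one]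
  have hunit : ∀ q g, ‖(((w' : PreIdele) q g : (Ω q)ˣ) : Ω q)‖ = 1 := fun q g => by
    by_cases hq : q ∈ S'
    · rw [hone q hq g, norm_one]
    · rw [hw']
      show ‖((u q g / (v : PreIdele) q g ^ p : (Ω q)ˣ) : Ω q)‖ = 1
      rw [Units.val_div_eq_div_val, Units.val_pow_eq_pow_val, norm_div, norm_pow, hu.1.2 q hq g,
        v.2.2 q hq g, one_pow, div_one]
  set W : idl K := w' * ⟨w, hw.1⟩
  refine ⟨proj K (Additive.ofMul ⟨v, v.2.1⟩), Additive.ofMul W, fun q σ => ⟨?_, fun hq => ?_⟩, ?_⟩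
  · rw [toMul_ofMul, mem_unitGroup, norm_val W q (res_lift K σ)]
    show ‖(((w' : PreIdele) q _ * w q _ : (Ω q)ˣ) : Ω q)‖ = 1
    rw [Units.val_mul, norm_mul, hunit, (hw.2 q _).1, one_mul]
  · refine Units.ext (Subtype.ext ?_)
    rw [toMul_ofMul, coe_val W q (res_lift K σ)]
    show (((w' : PreIdele) q _ * w q _ : (Ω q)ˣ) : Ω q) = 1
    rw [Units.val_mul, hone q (hSS hq), (hw.2 q _).2 hq, Units.val_one, one_mul]
  · set c' : Kˣ := Units.mk0 ⟨(c : QBar), hc⟩ fun h => c.ne_zero (congrArg Subtype.val h)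
    have e : f = prinL K c' * (⟨v, v.2.1⟩ : idl K) ^ p * W := Subtype.ext (by
      rw [← haw]
      show prin c * u * w = prin (Units.map K.val.toRingHom.toMonoidHom c') *
        (v : PreIdele) ^ p * (u / (v : PreIdele) ^ p * w)
      rw [show Units.map K.val.toRingHom.toMonoidHom c' = c from Units.ext rfl,
        mul_assoc _ ((v : PreIdele) ^ p), ← mul_assoc _ (u / _), mul_div_cancel, mul_assoc])
    have h0 : proj K (Additive.ofMul (prinL K c')) = 0 := (proj_eq_zero_iff K).2 ⟨c', rfl⟩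
    rw [e, ofMul_mul, ofMul_mul, ofMul_pow, map_add, map_add, map_nsmul, h0, zero_add]

/-- A product over a group with a character onto `ℤ/p`, through the kernel of the character. -/
theorem prod_decomp {G A : Type*} [Group G] [CommMonoid A] [MulDistribMulAction G A]
    {N : Subgroup G} [Fintype N] (κ : N → ZMod p) (hadd : ∀ m n, κ (m * n) = κ m + κ n) (g : N)
    (hg : κ g = 1) (X : A) :
    ∃ y : A, (∏ n : N, (n : G) • X) = ∏ i ∈ Finset.range p, (g : G) ^ i • y ∧
      ∀ m : N, κ m = 0 → (m : G) • y = y := by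
  classical
  let χ : N →* Multiplicative (ZMod p) :=
    MonoidHom.mk' (fun n => Multiplicative.ofAdd (κ n)) fun m n => congrArg _ (hadd m n)
  haveI : Fintype χ.ker := Fintype.ofFinite _
  refine ⟨∏ k : χ.ker, ((k : N) : G) • X, ?_, fun m hm => ?_⟩
  · rw [← Fin.prod_univ_eq_prod_range (fun i => (g : G) ^ i • _)]
    simp only [Finset.smul_prod', smul_smul]
    rw [← Fintype.prod_prod_type' (f := fun (i : Fin p) (k : χ.ker) =>
      ((g : G) ^ (i : ℕ) * ((k : N) : G)) • X)]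
    exact (Fintype.prod_bijective _ (bijective_pow_mul χ (g := g)
      (congrArg Multiplicative.ofAdd hg)) _ _
      fun x => rfl).symm
  · simp only [Finset.smul_prod', smul_smul]
    exact Fintype.prod_equiv (Equiv.mulLeft (⟨m, congrArg Multiplicative.ofAdd hm⟩ : χ.ker)) _ _
      fun k => rfl

variable {L : IntermediateField ℚ QBar} [FiniteDimensional ℚ L] [Normal ℚ L] {le : K ≤ L}

/-- The norm of an idele of `L` lies among the norms from every Kummer field inside `L`. -/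
theorem norm_mem_normSub {ζ : QBar} (hζ : IsPrimitiveRoot ζ p) (hζK : ζ ∈ K) {b : QBar}
    (hbK : b ∈ K) (hb0 : b ≠ 0) (hbL : rootP p b ∈ L) {g₀ : GQ} (hg₀ : g₀ ∈ K.fixingSubgroup)
    (hkum : kum hζ g₀ b = 1) [Fintype (levelRes le).ker] {f : idl K} {X : idl L} {a : Lˣ}
    (e : (∏ n : (levelRes le).ker, (n : L ≃ₐ[ℚ] L) • X) * prinL L a = Duality.inclIdl le f) :
    (f : PreIdele) ∈ normSub p K b g₀ := by
  classical
  set β := rootP p b with hβ
  set g := res L g₀ with hgdef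
  let κ : (levelRes le).ker → ZMod p := fun n => kum hζ (lift L n.1) b
  have hmemK : ∀ n : (levelRes le).ker, lift L n.1 ∈ K.fixingSubgroup := fun n => by
    rw [← res_eq_one_iff, ← levelRes_res le, res_lift]; exact MonoidHom.mem_ker.mp n.2
  have hg : g ∈ (levelRes le).ker := by
    rw [MonoidHom.mem_ker, hgdef, levelRes_res, res_eq_one_iff]; exact hg₀
  have hkey : ∀ (σ : GQ) (hσ : σ ∈ K.fixingSubgroup) (n : (levelRes le).ker),
      res L σ = n.1 → kum hζ σ b = κ n := fun σ hσ n e => by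
    have h1 := kum_spec hζ hζK (hmemK n) hbK hb0 (rootP_pow b)
    have h2 : lift L n.1 β = σ β := by
      have := (res_apply L (lift L n.1) ⟨β, hbL⟩).symm.trans
        ((congrArg (fun s : L ≃ₐ[ℚ] L => ((s ⟨β, hbL⟩ : L) : QBar))
          ((res_lift L n.1).trans e.symm)).trans (res_apply L σ ⟨β, hbL⟩))
      exact this
    rw [← hβ, h2] at h1
    rw [kum_eq hζ hζK hσ hbK hb0 (rootP_pow b) h1, ZMod.natCast_zmod_val]
  have hgone : κ ⟨g, hg⟩ = 1 := by rw [← hkey g₀ hg₀ ⟨g, hg⟩ rfl, hkum]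
  have hadd : ∀ m n, κ (m * n) = κ m + κ n := fun m n => by
    rw [← hkey (lift L m.1 * lift L n.1) (mul_mem (hmemK m) (hmemK n)) (m * n)
      (by rw [map_mul, res_lift, res_lift]; rfl), kum_comp hζ hζK (hmemK m) (hmemK n) hbK hb0]
  obtain ⟨y, hN, hfix⟩ := prod_decomp κ hadd ⟨g, hg⟩ hgone X
  have hy : (y : PreIdele) ∈ idl (kumField K β) := by
    refine mem_idl.2 ⟨(mem_idl.1 y.2).1, (mem_idl.1 y.2).2.1, fun s hs => ?_⟩
    obtain ⟨hsK, hsβ⟩ := mem_fixingSubgroup_kumField.mp hs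
    rw [← coe_smul_idl L _ y (rfl : res L s = _)]
    congr 1
    refine hfix ⟨res L s, by rw [MonoidHom.mem_ker, levelRes_res, res_eq_one_iff]; exact hsK⟩ ?_
    rw [← hkey s hsK ⟨res L s, by rw [MonoidHom.mem_ker, levelRes_res, res_eq_one_iff]; exact hsK⟩
      rfl, kum_eq_zero_iff hζ hζK hsK hbK hb0 (rootP_pow b)]
    exact hsβ
  have hcoe : (f : PreIdele) = normStep p g₀ (y : PreIdele) *
      prin (Units.map L.val.toRingHom.toMonoidHom a) := by
    rw [← coe_prod_smul L g₀ p y, ← hgdef, ← hN]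
    exact (congrArg Subtype.val e).symm
  have hprin : prin (Units.map L.val.toRingHom.toMonoidHom a) ∈ idl K := by
    rw [show prin (Units.map L.val.toRingHom.toMonoidHom a) =
      (normStep p g₀ (y : PreIdele))⁻¹ * (f : PreIdele) by rw [hcoe, inv_mul_cancel_left]]
    exact mul_mem (inv_mem (normStep_mem_idl hζ hζK hbK hb0 hg₀ hkum hy)) f.2
  rw [hcoe, mul_comm]
  exact Subgroup.mul_mem_sup ⟨_, prin_mem_idl_iff.mp hprin, rfl⟩ ⟨_, hy, rfl⟩

/-- Norms from the level field are `p`-th powers up to unit families off `S`. -/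
theorem LevelField.norm_hyp (hp2 : p ≠ 2) {ζ : QBar} (hζ : IsPrimitiveRoot ζ p) (hζK : ζ ∈ K)
    (hpS : pPrime p ∈ S) (hL : LevelField p S le) [Fintype (levelRes le).ker] (x : C L) :
    ∃ c : C K, ∃ w ∈ unitsOff K (S : Set Nat.Primes),
      normSum (levelRes le).ker (C L) x = Duality.inclC le (p • c + proj K w) := by
  classical
  have hK : K.IsUnramifiedOutside S := hL.ur.of_le le
  obtain ⟨c₀, hc₀⟩ := exists_inclC_eq le (c := normSum (levelRes le).ker (C L) x)
    fun σ hσ => smul_normSum (⟨σ, hσ⟩ : (levelRes le).ker) x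
  obtain ⟨J₀, rfl⟩ := proj_surjective K c₀
  obtain ⟨S', hS', hgood⟩ := exists_goodSet hp2 hζ hζK (p := p) (K := K) S
  suffices h : (J₀.toMul : PreIdele) ∈
      (prinSub K ⊔ powAt p S' K) ⊔ unitsOffP (S : Set Nat.Primes) K by
    obtain ⟨c, w, hw, e⟩ := exists_class_of_mem hS' h
    exact ⟨c, w, hw, by rw [← hc₀, ← e]; rfl⟩
  by_contra hnot
  obtain ⟨b, hbK, hb0, -, hdiv, g₀, hg₀, hkum, hfN⟩ :=
    exists_notMem_normSub hp2 hζ hζK hgood (T := (S : Set Nat.Primes))
      (show (⟨p, hp.out⟩ : Nat.Primes) ∈ (S : Set Nat.Primes) from hpS)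
      (Finset.coe_subset.mpr hS') J₀.toMul.2 hnot
  set bu : Kˣ := Units.mk0 ⟨b, hbK⟩ fun h => hb0 (congrArg Subtype.val h)
  have hbd : diag K (Additive.ofMul bu) ∈ PT.divOrd K p (S : Set Nat.Primes) := fun q hq g => by
    obtain ⟨τ, s, hs, e⟩ := placeRep_spec (q := q) (K := K) g
    obtain ⟨c, hc, hcn⟩ := hdiv q hq _ (placeRep_idem g)
    rw [fieldAt_eq] at hc
    have hc0 : c ≠ 0 := fun h => by
      rw [h, norm_zero, zero_pow hp.out.ne_zero, norm_eq_zero, map_eq_zero, map_eq_zero] at hcn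
      exact hb0 hcn
    obtain ⟨n, hn⟩ := PT.exists_norm_eq_zpow_of_ur K hK (by simpa using hq : q ∉ S)
      (Units.mk0 (⟨c, hc⟩ : E K q) fun h => hc0 (congrArg Subtype.val h))
    refine ⟨n, ?_⟩
    rw [normAt_diag, e]
    show ‖emb q ((loc q τ) (placeRep q K g (s b)))‖ = _
    rw [(IntermediateField.mem_fixingSubgroup_iff _ _).mp hs b hbK, emb_loc, norm_algEquiv_Ω, hcn,
      show ‖c‖ = (q : ℝ) ^ n from hn, ← zpow_natCast, ← zpow_mul, mul_comm]
  obtain ⟨X, rfl⟩ := proj_surjective L x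
  have e0 : proj L (∑ n : (levelRes le).ker, (n : L ≃ₐ[ℚ] L) • X) = proj L (inclJ le J₀) := by
    rw [← inclC_proj, hc₀, map_sum, normSum]
    exact Finset.sum_congr rfl fun n _ => proj_smul L _ X
  rw [← sub_eq_zero, ← map_sub, proj_eq_zero_iff] at e0
  obtain ⟨a, ha⟩ := e0
  refine hfN (norm_mem_normSub (le := le) hζ hζK hbK hb0
    (hL.root_mem bu hbd _ (rootP_pow b)) hg₀ hkum (X := X.toMul) (a := a⁻¹) ?_)
  rw [map_inv, ha, toMul_sub, toMul_sum, inv_div]
  exact mul_div_cancel _ _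

end Fermat.Agent.CFT.PTLevel
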