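import Fermat.Agent.CFT.Formation.Compat
import Fermat.Agent.CFT.Duality.Main
import Fermat.Agent.CFT.PT.SupportedH1
import Fermat.Agent.CFT.PT.Descent
import Fermat.Agent.CFT.Euler.ModP

/-!
# Local realisation of functionals on global cocycles

A functional on cocycles which kills those trivial on the decomposition groups over `S` comes from
an equivariant map into the ideles supported at `S`.
-/

set_option autoImplicit false
set_option linter.unusedSectionVars false
set_option linter.style.haveILetI false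

noncomputable section

namespace Fermat.Agent.CFT.PTLevel

open ExtCitation Fermat.Agent.Arith IntermediateField Fermat.Agent.CFT.Local Fermat.Agent.CFT.Idele
open Fermat.Agent.CFT.Duality groupCohomology

local instance factPrimeRealise (q : Nat.Primes) : Fact (q : ℕ).Prime := ⟨q.2⟩

section Functional

variable {p : ℕ} [hp : Fact p.Prime]

/-- Functionals extend along maps into groups killed by `p`. -/
theorem exists_functional_of_ker {V R : Type*} [AddCommGroup V] [AddCommGroup R]
    (hR : ∀ r : R, p • r = 0) (f : V →+ R) (ν : V →+ ZMod p) (h : ∀ v, f v = 0 → ν v = 0) :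
    ∃ ν' : R →+ ZMod p, ∀ v, ν' (f v) = ν v := by
  letI : Module (ZMod p) R := AddCommGroup.zmodModule (n := p) hR
  obtain ⟨L, hL⟩ := exists_functional_comp f ν h
  exact ⟨L.toAddMonoidHom, hL⟩

/-- A functional vanishing on an intersection is a sum of functionals vanishing on the members. -/
theorem exists_sum_functional {V ι : Type*} [AddCommGroup V] [Fintype ι] (Z : ι → AddSubgroup V)
    (hkill : ∀ v : V, p • v = 0) (μ : V →+ ZMod p) (h : ∀ v, (∀ i, v ∈ Z i) → μ v = 0) :
    ∃ μ' : ι → V →+ ZMod p, (∀ i, ∀ v ∈ Z i, μ' i v = 0) ∧ μ = ∑ i, μ' i := by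
  classical
  let f : V →+ ((i : ι) → V ⧸ Z i) :=
    AddMonoidHom.mk' (fun v i => (v : V ⧸ Z i)) fun _ _ => rfl
  obtain ⟨ν, hν⟩ := exists_functional_of_ker (fun r => funext fun i => by
      obtain ⟨v, hv⟩ := QuotientAddGroup.mk_surjective (r i)
      rw [Pi.smul_apply, ← hv, ← QuotientAddGroup.mk_nsmul, hkill]
      rfl) f μ fun v hv =>
    h v fun i => (QuotientAddGroup.eq_zero_iff v).mp (congrFun hv i)
  refine ⟨fun i => (ν.comp (AddMonoidHom.single (fun i => V ⧸ Z i) i)).comp
    (QuotientAddGroup.mk' (Z i)), fun i v hv => ?_, AddMonoidHom.ext fun v => ?_⟩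
  · show ν (Pi.single i ((v : V ⧸ Z i))) = 0
    rw [(QuotientAddGroup.eq_zero_iff v).mpr hv, Pi.single_zero, map_zero]
  · rw [AddMonoidHom.finsetSum_apply]
    show μ v = ∑ i, ν (Pi.single i (f v i))
    rw [← map_sum ν, Finset.univ_sum_single, hν]

end Functional

section Generic

variable {G₁ G₀ C₁ C₀ A ι : Type*} [Group G₁] [Fintype G₁] [Group G₀] [Fintype G₀]
  [AddCommGroup C₁] [DistribMulAction G₁ C₁] [AddCommGroup C₀] [DistribMulAction G₀ C₀]
  [AddCommGroup A] [DistribMulAction G₀ A] [Fintype ι] {p : ℕ} [hp : Fact p.Prime]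
  {π : G₁ →* G₀} {ε : Lat G₀ ι →+ A} {j : C₀ →+ C₁} {u : NormCocycle G₁ C₁}

/-- The duality map at a corrected trace from a subgroup. -/
theorem theta_corrected (hL : LevelSystem p π j u) (hε : Presentation p ε)
    (f : equivHom (C := C₀) hε.isStable_ker) {H : Subgroup G₁} [Fintype H] [Fintype (G₁ ⧸ H)]
    {Cv : Type*} [AddCommGroup Cv] [DistribMulAction H Cv] {uv : NormCocycle H Cv}
    (huv : IsClassFormation p uv) (σ : SplitHom H uv u)
    (g : equivHom (C := Cv) (IsStable.restrict (hε.isStable_up (π := π)) H))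
    (Ψ : Lat G₁ ι →+ C₁) (hΨ : ∀ (x : G₁) z, Ψ (x • z) = x • Ψ z)
    (hfg : pullHom π ε j f.1 =
      trHom hε.isStable_up H (σ.j.comp g.1) - Ψ.comp (relUp π ε).subtype)
    (a : levelCocycles π A) :
    theta hL hε f a = (σ.s : ZMod p) * pair (IsStable.restrict hε.isStable_up H) hε.smul_mem_up huv
      (Lat.isInduced.subgroup H) g (resMod H ⟨_, liftC_mem hL hε a⟩) := by
  obtain ⟨T, hT⟩ := (Lat.isInduced : IsInduced G₁ (Lat G₁ ι))
  have he : pullEquiv hL hε f = trEquiv hε.isStable_up σ g -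
      ⟨normOn hε.isStable_up ((Ψ.comp T).comp (relUp π ε).subtype), isEquivariantOn_normOn _ _⟩ :=
    Subtype.ext (hfg.trans (by
      show _ = trHom hε.isStable_up H (σ.j.comp g.1) -
        normOn hε.isStable_up ((Ψ.comp T).comp (relUp π ε).subtype)
      rw [normOn_comp_of_equivariant hε.isStable_up hT Ψ hΨ]))
  rw [theta_apply, he, map_sub, AddMonoidHom.sub_apply, pair_normOn, sub_zero]
  exact pair_trEquiv hε.isStable_up hε.smul_mem_up hL.classFormation Lat.isInduced huv σ g _

/-- A functional through classes of cocycles is a pairing. -/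
theorem exists_pair_section {H P : Type*} [Group H] [Fintype H] [AddCommGroup P]
    [DistribMulAction H P] [Module.Free ℤ P] [Module.Finite ℤ P] {S : AddSubgroup P}
    (hS : IsStable H S) {Cv : Type*} [AddCommGroup Cv] [DistribMulAction H Cv]
    {uv : NormCocycle H Cv} (hpS : ∀ x : P, p • x ∈ S) (huv : IsClassFormation p uv)
    (hP : IsInduced H P) {V : Type*} [AddCommGroup V]
    (push : V →+ cocycleMod (G := H) (S := S) ⧸
      (coboundaryMod (G := H) (S := S)).addSubgroupOf (cocycleMod (G := H) (S := S)))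
    (ν : V →+ ZMod p) (hν : ∀ v, push v = 0 → ν v = 0) {c : ZMod p} (hc : c ≠ 0) :
    ∃ gv, ∀ v b, (QuotientAddGroup.mk b : cocycleMod (G := H) (S := S) ⧸
      (coboundaryMod (G := H) (S := S)).addSubgroupOf (cocycleMod (G := H) (S := S))) = push v →
        c * pair hS hpS huv hP gv b = ν v := by
  obtain ⟨ν', hν'⟩ := exists_functional_of_ker (fun r => by
    obtain ⟨b, rfl⟩ := QuotientAddGroup.mk_surjective r
    rw [← QuotientAddGroup.mk_nsmul, QuotientAddGroup.eq_zero_iff, AddSubgroup.mem_addSubgroupOf]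
    exact ⟨0, fun g => by simpa using hpS _⟩) push ν hν
  obtain ⟨gv, hgv⟩ := exists_pair_eq hS hpS huv hP
    ((AddMonoidHom.mulLeft c⁻¹).comp (ν'.comp (QuotientAddGroup.mk' _))) fun b hb => by
      simp only [AddMonoidHom.comp_apply, QuotientAddGroup.mk'_apply]
      rw [(QuotientAddGroup.eq_zero_iff b).mpr (AddSubgroup.mem_addSubgroupOf.mpr hb), map_zero,
        map_zero]
  refine ⟨gv, fun v b hb => ?_⟩
  rw [hgv, AddMonoidHom.comp_apply, AddMonoidHom.comp_apply, QuotientAddGroup.mk'_apply,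
    AddMonoidHom.coe_mulLeft, mul_inv_cancel_left₀ hc, hb]
  exact hν' v

end Generic

variable {K L : IntermediateField ℚ QBar} [FiniteDimensional ℚ K] [Normal ℚ K]
  [FiniteDimensional ℚ L] [Normal ℚ L] (le : K ≤ L)
  {A ι : Type*} [AddCommGroup A] [DistribMulAction (K ≃ₐ[ℚ] K) A] [Fintype ι] {p : ℕ}
  [hp : Fact p.Prime] {ε : Lat (K ≃ₐ[ℚ] K) ι →+ A} (hε : Presentation p ε)

variable (A) in
/-- Cocycles which are trivial on the decomposition group over `q`. -/
abbrev trivAt (q : Nat.Primes) : AddSubgroup (levelCocycles (levelRes le) A) :=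
  coboundOn (levelRes le) A (decomp L q)

include hε in
theorem nsmul_levelCocycle (a : levelCocycles (levelRes le) A) : p • a = 0 :=
  Subtype.ext (funext fun g => by
    rw [AddSubgroup.coe_nsmul, Pi.smul_apply, hε.killed]; rfl)

variable {u : NormCocycle (L ≃ₐ[ℚ] L) (C L)} (hu : IsClassFormation p u)
  (hk : IsPGroup p (levelRes le).ker)

include hε in
theorem mem_trivAt_of_restrict (hL : LevelSystem (C₀ := C K) p (levelRes le) (inclC le) u)
    (q : Nat.Primes) (P₀ : Sylow p (decomp L q)) (a : levelCocycles (levelRes le) A)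
    (h : Subtype.val (resMod ((P₀ : Subgroup (decomp L q)).map (decomp L q).subtype)
      ⟨_, liftC_mem hL hε a⟩) ∈
        coboundaryMod (S := relUp (levelRes le) ε)) : a ∈ trivAt le A q := by
  classical
  letI : Fintype (decomp L q) := Fintype.ofFinite _
  obtain ⟨x, hx⟩ := h
  have hD := mem_coboundaryMod_of_resMod (p := p)
    (hS := IsStable.restrict (hε.isStable_up (π := levelRes le)) (decomp L q))
    (P₀ : Subgroup (decomp L q)) hε.smul_mem_up P₀.not_dvd_index
    (resMod (decomp L q) ⟨_, liftC_mem hL hε a⟩)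
    ⟨x, fun k => hx ⟨((k : decomp L q) : L ≃ₐ[ℚ] L), Subgroup.mem_map_of_mem _ k.2⟩⟩
  obtain ⟨y, hy⟩ := hD
  refine ⟨ε (Lat.pr (levelRes le) y), fun g hg => ?_⟩
  have e := hy ⟨g, hg⟩
  rw [mem_relUp, resMod_apply] at e
  simp only [Subgroup.smul_def, map_sub, Lat.pr_smul, hε.map_smul, eps_liftC hL hε,
    sub_eq_zero] at e
  exact e

/-- The cocycle push to `Z¹(P, P₀)/B¹`. -/
def resClass (hL : LevelSystem (C₀ := C K) p (levelRes le) (inclC le) u)
    (P : Subgroup (L ≃ₐ[ℚ] L)) :
    levelCocycles (levelRes le) A →+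
      cocycleMod (G := P) (S := relUp (levelRes le) ε) ⧸
        (coboundaryMod (G := P) (S := relUp (levelRes le) ε)).addSubgroupOf
          (cocycleMod (G := P) (S := relUp (levelRes le) ε)) :=
  AddMonoidHom.mk' (fun a => QuotientAddGroup.mk (resMod P ⟨_, liftC_mem hL hε a⟩)) fun a b => by
    rw [← QuotientAddGroup.mk_add, QuotientAddGroup.eq, AddSubgroup.mem_addSubgroupOf]
    refine ⟨0, fun g => ?_⟩
    rw [mem_relUp]
    simp [eps_liftC hL hε]

/-- A map into the ideles supported at `q` which is equivariant for the upper level can be corrected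
by a map on the lattice so as to descend to the lower level. -/
theorem exists_descend_supported (q : Nat.Primes) (w₁ : relUp (levelRes le) ε →+ J L)
    (hw₁ : IsEquivariantOn hε.isStable_up w₁) (hw₁q : ∀ s, w₁ s ∈ supportedIn L {q}) :
    ∃ (w : equivHom (C := J K) hε.isStable_ker) (Φ : Lat (L ≃ₐ[ℚ] L) ι →+ J L),
      (∀ s, w.1 s ∈ supportedIn K {q}) ∧ (∀ (g : L ≃ₐ[ℚ] L) x, Φ (g • x) = g • Φ x) ∧
        upJ le w.1 = w₁ - Φ.comp (relUp (levelRes le) ε).subtype := by
  classical
  have hπ : Function.Surjective (levelRes le) := levelRes_surjective le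
  have hstab : IsStable (L ≃ₐ[ℚ] L) (supportedIn L ({q} : Set Nat.Primes)) := fun g x hx =>
    smul_mem_supportedIn g hx
  letI := Euler.stableAction hstab
  let ψ : (Lat.pr (levelRes le) (ι := ι)).ker →+ supportedIn L ({q} : Set Nat.Primes) :=
    (w₁.comp (AddSubgroup.inclusion ker_pr_le)).codRestrict _ fun k => hw₁q _
  have hex := Lat.exists_extend_ker (levelRes le) hπ ⊤ (X := supportedIn L ({q} : Set Nat.Primes))
    (fun c hc => by
      let e := Subgroup.subgroupOfEquivOfLe (le_top : (levelRes le).ker ≤ ⊤)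
      obtain ⟨y, hy, hyc⟩ := PT.exists_of_cocycle_supported q (levelRes le).ker
        (fun n => (c (e.symm n) : J L)) (fun m n => by
          have h := congrArg Subtype.val (hc (e.symm m) (e.symm n))
          rw [← map_mul] at h
          exact h) fun n => (c (e.symm n)).2
      exact ⟨⟨y, hy⟩, fun n => Subtype.ext ((hyc (e n)).trans
        (congrArg (fun z => (c z : J L)) (e.symm_apply_apply n)))⟩)
    ψ fun h k => Subtype.ext (hw₁ (h : L ≃ₐ[ℚ] L) (AddSubgroup.inclusion ker_pr_le k))
  obtain ⟨Φ₀, hΦ₀, hΦψ⟩ := hex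
  let Φ : Lat (L ≃ₐ[ℚ] L) ι →+ J L := (supportedIn L ({q} : Set Nat.Primes)).subtype.comp Φ₀
  have hΦ : ∀ g x, Φ (g • x) = g • Φ x := fun g x =>
    congrArg Subtype.val (hΦ₀ ⟨g, trivial⟩ x)
  set ω := w₁ - Φ.comp (relUp (levelRes le) ε).subtype with hω
  have hωK : ∀ k : (Lat.pr (levelRes le) (ι := ι)).ker, ω (AddSubgroup.inclusion ker_pr_le k) = 0 := fun k => by
    rw [hω, AddMonoidHom.sub_apply, AddMonoidHom.comp_apply, AddSubgroup.coe_subtype,
      AddSubgroup.coe_inclusion, sub_eq_zero]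
    exact (congrArg Subtype.val (hΦψ k)).symm
  have hωe : IsEquivariantOn hε.isStable_up ω := fun g s => by
    rw [hω]
    simp only [AddMonoidHom.sub_apply, AddMonoidHom.comp_apply, AddSubgroup.coe_subtype,
      coe_smulS, hw₁ g s, hΦ, smul_sub]
  have hfix : ∀ s : ε.ker, ∀ n ∈ (levelRes le).ker, n • ω (secS (levelRes le) ε hπ s) = ω (secS (levelRes le) ε hπ s) := by
    intro s n hn
    rw [← hωe n, apply_eq_of_vanish hπ ω hωK]
    congr 2
    refine Subtype.ext ?_
    rw [coe_prS, coe_smulS, Lat.pr_smul, MonoidHom.mem_ker.mp hn, one_smul]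
    exact congr_arg Subtype.val (prS_secS hπ s)
  choose w hw using fun s : ε.ker => exists_inclJ_eq le (hfix s)
  let w' : ε.ker →+ J K := AddMonoidHom.mk' w fun s t => inclJ_injective le (by
    rw [map_add (inclJ le), hw, hw, hw, map_add, map_add])
  have hup : upJ le w' = ω := AddMonoidHom.ext fun s => by
    show inclJ le (w (prS (levelRes le) ε s)) = _
    rw [hw, ← apply_eq_of_vanish hπ ω hωK]
  refine ⟨⟨w', fun g s => inclJ_injective le ?_⟩, Φ, fun s => ?_, hΦ, hup⟩
  · obtain ⟨g, rfl⟩ := hπ g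
    show inclJ le (w (smulS hε.isStable_ker (levelRes le g) s)) = inclJ le (levelRes le g • w s)
    rw [← smul_inclJ, hw, hw, ← hωe, apply_eq_of_vanish hπ ω hωK (smulS hε.isStable_up g _),
      prS_smul hε, prS_secS]
  · refine PT.inclJ_mem_supportedIn_iff le |>.mp ?_
    show inclJ le (w s) ∈ _
    rw [hw, hω]
    exact sub_mem (hw₁q _) (Φ₀ _).2

/-- The pairing at a corrected trace from a subgroup. -/
theorem dual_corrected {P : Subgroup (L ≃ₐ[ℚ] L)} [Fintype P] [Fintype ((L ≃ₐ[ℚ] L) ⧸ P)]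
    {Cv : Type*} [AddCommGroup Cv] [DistribMulAction P Cv] {uv : NormCocycle P Cv}
    (huv : IsClassFormation p uv) (σ : SplitHom P uv u) (jl : Cv →+ J L)
    (hj : σ.j = (proj L).comp jl)
    (gv : equivHom (C := Cv) (IsStable.restrict (hε.isStable_up (π := levelRes le)) P))
    (w : equivHom (C := J K) hε.isStable_ker) (Φ : Lat (L ≃ₐ[ℚ] L) ι →+ J L)
    (hΦ : ∀ (g : L ≃ₐ[ℚ] L) x, Φ (g • x) = g • Φ x)
    (hup : upJ le w.1 = trHom (hε.isStable_up (π := levelRes le)) P (jl.comp gv.1) -
      Φ.comp (relUp (levelRes le) ε).subtype) (a : levelCocycles (levelRes le) A) :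
    dual hε le hu hk (projHom hε w) a = (σ.s : ZMod p) *
      pair (IsStable.restrict (hε.isStable_up (π := levelRes le)) P) hε.smul_mem_up huv
        (Lat.isInduced.subgroup P) gv
        (resMod P ⟨_, liftC_mem (levelSystem le hu hk) hε a⟩) := by
  refine theta_corrected (levelSystem le hu hk) hε (projHom hε w) huv σ gv ((proj L).comp Φ)
    (fun g x => by simp [hΦ, proj_smul]) ?_ a
  rw [projHom_coe, pullHom_proj, hup, hj]
  ext s
  simp only [trHom_apply, AddMonoidHom.comp_apply, AddMonoidHom.sub_apply,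
    AddMonoidHom.finsetSum_apply, conjOn_apply, map_sub, map_sum, proj_smul]

include hu hk in
/-- A functional trivial on the cocycles trivial at `q` is a local pairing at a Sylow subgroup. -/
theorem exists_local_pair (q : Nat.Primes) (P₀ : Sylow p (decomp L q))
    [Fintype ((P₀ : Subgroup (decomp L q)).map (decomp L q).subtype)]
    {Cv : Type*} [AddCommGroup Cv]
    [DistribMulAction ((P₀ : Subgroup (decomp L q)).map (decomp L q).subtype) Cv]
    {uv : NormCocycle ((P₀ : Subgroup (decomp L q)).map (decomp L q).subtype) Cv}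
    (huv : IsClassFormation p uv) {c : ZMod p} (hc : c ≠ 0)
    (ν : levelCocycles (levelRes le) A →+ ZMod p) (hν : ∀ a ∈ trivAt le A q, ν a = 0) :
    ∃ gv, ∀ a, c * pair (IsStable.restrict (hε.isStable_up (π := levelRes le))
        ((P₀ : Subgroup (decomp L q)).map (decomp L q).subtype)) hε.smul_mem_up huv
        (Lat.isInduced.subgroup _) gv
        (resMod _ ⟨_, liftC_mem (levelSystem le hu hk) hε a⟩) = ν a := by
  classical
  have hex := exists_pair_section (IsStable.restrict (hε.isStable_up (π := levelRes le))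
      ((P₀ : Subgroup (decomp L q)).map (decomp L q).subtype)) hε.smul_mem_up huv
    (Lat.isInduced.subgroup _)
    (resClass le hε (levelSystem le hu hk) ((P₀ : Subgroup (decomp L q)).map (decomp L q).subtype))
    ν (fun a ha => hν a (mem_trivAt_of_restrict le hε (levelSystem le hu hk) q P₀ a
      (AddSubgroup.mem_addSubgroupOf.mp ((QuotientAddGroup.eq_zero_iff _).mp ha)))) hc
  obtain ⟨gv, hgv⟩ := hex
  exact ⟨gv, fun a => hgv a _ rfl⟩

include hu hk in
/-- Realisation at one prime. -/
theorem exists_realise_at (hp2 : p ≠ 2) {ζ : L} (hζ : IsPrimitiveRoot ζ p) (q : Nat.Primes)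
    (ν : levelCocycles (levelRes le) A →+ ZMod p) (hν : ∀ a ∈ trivAt le A q, ν a = 0) :
    ∃ w : equivHom (C := J K) hε.isStable_ker, (∀ s, w.1 s ∈ supportedIn K {q}) ∧
      dual hε le hu hk (projHom hε w) = ν := by
  classical
  have hne : Nonempty (Sylow p (decomp L q)) := inferInstance
  obtain ⟨P₀⟩ := hne
  let P : Subgroup (L ≃ₐ[ℚ] L) := (P₀ : Subgroup (decomp L q)).map (decomp L q).subtype
  have hPD : P ≤ decomp L q := Subgroup.map_subtype_le _
  have hPp : IsPGroup p P := P₀.isPGroup'.map _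
  letI : Fintype P := Fintype.ofFinite _
  letI : Fintype ((L ≃ₐ[ℚ] L) ⧸ P) := Fintype.ofFinite _
  have hsplit := Formation.exists_splitHom hp2 hζ q hPD hPp hu
  obtain ⟨uv, σ, huv, hs, hj⟩ := hsplit
  have hsu : (σ.s : ZMod p) ≠ 0 := fun h => hs ((ZMod.intCast_zmod_eq_zero_iff_dvd _ p).mp h)
  have hpair := exists_local_pair le hε hu hk q P₀ huv hsu ν hν
  obtain ⟨gv, hgv⟩ := hpair
  let jl : Formation.LocMod q hPD →+ J L := (loc' L q).comp Formation.LocMod.toLoc
  have hw₁ : IsEquivariantOn (hε.isStable_up (π := levelRes le))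
      (trHom (hε.isStable_up (π := levelRes le)) P (jl.comp gv.1)) :=
    isEquivariantOn_trHom _ P _ fun x s => by
      show jl (gv.1 _) = (x : L ≃ₐ[ℚ] L) • jl (gv.1 s)
      rw [gv.2 x s]
      show loc' L q (Formation.LocMod.toLoc (x • gv.1 s)) = _
      rw [Formation.LocMod.toLoc_smul, loc'_smul, Formation.toGlobal_decompPre]
      rfl
  have hw₁q : ∀ s, trHom (hε.isStable_up (π := levelRes le)) P (jl.comp gv.1) s ∈
      supportedIn L {q} := fun s => by
    rw [trHom_apply, AddMonoidHom.finsetSum_apply]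
    refine sum_mem fun r _ => smul_mem_supportedIn _ fun q' hq' τ => ?_
    exact val_locIdl_of_ne q _ (by simpa using hq') _
  have hdesc := exists_descend_supported le hε q _ hw₁ hw₁q
  obtain ⟨w, Φ, hwq, hΦ, hup⟩ := hdesc
  exact ⟨w, hwq, AddMonoidHom.ext fun a =>
    (dual_corrected le hε hu hk huv σ jl hj gv w Φ hΦ hup a).trans (hgv a)⟩

include hu hk in
/-- **Local realisation.** -/
theorem exists_realise (hp2 : p ≠ 2) {ζ : L} (hζ : IsPrimitiveRoot ζ p) (S : Finset Nat.Primes)
    (μ : levelCocycles (levelRes le) A →+ ZMod p)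
    (hμ : ∀ a, (∀ q ∈ S, a ∈ trivAt le A q) → μ a = 0) :
    ∃ w : equivHom (C := J K) hε.isStable_ker,
      (∀ s, w.1 s ∈ supportedIn K (S : Set Nat.Primes)) ∧
        dual hε le hu hk (projHom hε w) = μ := by
  classical
  have hex := exists_sum_functional (fun q : S => trivAt le A (q : Nat.Primes))
    (nsmul_levelCocycle le hε) μ fun a ha => hμ a fun q hq => ha ⟨q, hq⟩
  obtain ⟨μ', hμ', hsum⟩ := hex
  choose w hwq hw using fun q : S =>
    exists_realise_at le hε hu hk hp2 hζ (q : Nat.Primes) (μ' q) (hμ' q)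
  refine ⟨∑ q, w q, fun s => ?_, ?_⟩
  · rw [AddSubgroup.val_finsetSum, AddMonoidHom.finsetSum_apply]
    refine sum_mem fun q _ q' hq' σ => hwq q s q' (fun h => hq' ?_) σ
    rw [Set.mem_singleton_iff] at h
    rw [h]; exact q.2
  · rw [map_sum, map_sum, hsum]
    exact Finset.sum_congr rfl fun q _ => hw q

end Fermat.Agent.CFT.PTLevel
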