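import Fermat.Agent.CFT.PTLevel.Construct
import Fermat.Agent.CFT.PTLevel.Realise
import Fermat.Agent.CFT.PTLevel.NormHyp

/-!
# The kernels of the pairing

Maps linked to zero pair to zero with locally trivial cocycles; a cocycle linked to a map killing
the locally trivial cocycles is a coboundary.
-/

set_option autoImplicit false
set_option linter.unusedSectionVars false
set_option linter.style.haveILetI false

noncomputable section

namespace Fermat.Agent.CFT.PTLevel

open ExtCitation Fermat.Agent.Arith IntermediateField Fermat.Agent.CFT.Local Fermat.Agent.CFT.Idele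
open Fermat.Agent.CFT.Duality groupCohomology

local instance factPrimeKernel (q : Nat.Primes) : Fact (q : ℕ).Prime := ⟨q.2⟩

variable {K L : IntermediateField ℚ QBar} [FiniteDimensional ℚ K] [Normal ℚ K]
  [FiniteDimensional ℚ L] [Normal ℚ L] {le : K ≤ L}
  {A ι : Type*} [AddCommGroup A] [DistribMulAction (K ≃ₐ[ℚ] K) A] [Fintype ι] {p : ℕ}
  [hp : Fact p.Prime] {ε : Lat (K ≃ₐ[ℚ] K) ι →+ A} (hε : Presentation p ε) {S : Finset Nat.Primes}

section NoL

include hε in
/-- A map linked to zero lifts to the ideles with divisible orders outside `S`. -/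
theorem exists_lift_of_linked_zero {f : equivHom (C := C K) hε.isStable_ker}
    (hl : PT.Linked hε S 0 f.1) :
    ∃ w : equivHom (C := J K) hε.isStable_ker, projHom hε w = f ∧
      ∀ x, w.1 (mulP hε.smul_mem x) ∈ PT.divOrd K p (S : Set Nat.Primes) := by
  classical
  obtain ⟨L', _, _, le', hur, b, e, hl⟩ := hl
  have hdd : ∀ σ τ, PT.dd e σ τ = 0 := fun σ τ => by
    obtain ⟨g, rfl⟩ := AlgEquiv.restrictNormalHom_surjective (K₁ := L') QBar σ
    obtain ⟨h, rfl⟩ := AlgEquiv.restrictNormalHom_surjective (K₁ := L') QBar τ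
    refine PT.toQHom_injective ?_
    rw [← hl.spec, Pi.zero_apply, map_zero, map_zero]
  have hcoc : IsCocycle₁ e := fun σ τ => by
    have h := hdd σ τ
    simp only [PT.dd] at h
    rw [sub_add_eq_add_sub, sub_eq_zero] at h
    exact h.symm
  have hex := PT.isCoboundary₁_twHom_of_h1Zero e hcoc (h1Zero_units _)
  obtain ⟨θ, hθ⟩ := hex
  let b' : ε.ker →+ J L' := b - (diag L').comp (θ.toHom.comp ε.ker.subtype)
  have hinv : ∀ (σ : L' ≃ₐ[ℚ] L') (s : ε.ker),
      σ • b' (smulS hε.isStable_ker (levelRes le' σ⁻¹) s) = b' s := fun σ s => by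
    have h1 := hl.coboundary σ s
    rw [← hθ σ, PT.TwHom.sub_apply, PT.TwHom.smul_apply, map_sub, diag_smul] at h1
    simp only [b', AddMonoidHom.sub_apply, AddMonoidHom.comp_apply, AddSubgroup.coe_subtype,
      coe_smulS, PT.TwHom.toHom_apply, smul_sub]
    rw [← sub_eq_zero] at h1 ⊢
    rw [← h1]
    abel
  have hfix : ∀ s, ∀ σ ∈ (levelRes le').ker, σ • b' s = b' s := fun s σ hσ => by
    have h := hinv σ s
    rwa [map_inv, MonoidHom.mem_ker.1 hσ, inv_one, smulS_one] at h
  choose w hw using fun s => exists_inclJ_eq le' (hfix s)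
  let w' : ε.ker →+ J K := AddMonoidHom.mk' w fun s t => inclJ_injective le' (by
    rw [map_add (inclJ le'), hw, hw, hw, map_add])
  have hwe : IsEquivariantOn hε.isStable_ker w' := fun g s => inclJ_injective le' (by
    obtain ⟨σ, rfl⟩ := levelRes_surjective le' g
    show inclJ le' (w _) = inclJ le' (levelRes le' σ • w s)
    rw [← smul_inclJ, hw, hw, ← hinv σ (smulS hε.isStable_ker (levelRes le' σ) s), smulS_smulS,
      ← map_mul, inv_mul_cancel, map_one, smulS_one])
  refine ⟨⟨w', hwe⟩, Subtype.ext (AddMonoidHom.ext fun s => Duality.inclC_injective le' ?_), fun x => ?_⟩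
  · show Duality.inclC le' (proj K (w s)) = _
    rw [inclC_proj, hw]
    simp only [b', AddMonoidHom.sub_apply, AddMonoidHom.comp_apply, map_sub, proj_diag, sub_zero]
    exact hl.proj_b s
  · refine (PT.inclJ_mem_divOrd_iff le').1 ?_
    show inclJ le' (w _) ∈ _
    rw [hw]
    simp only [b', AddMonoidHom.sub_apply, AddMonoidHom.comp_apply, AddSubgroup.coe_subtype,
      coe_mulP, map_nsmul]
    exact sub_mem (hl.good x) (nsmul_mem_divOrd hur _)

end NoL

theorem apply_eq_zero_of_split {E G H R : Type*} [AddCommGroup E] [AddCommGroup G] [AddCommGroup H]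
    [AddCommGroup R] (Φ : G →+ H →+ R) (P : E →+ G) (w v : E) (a : H) (h₁ : Φ (P (w - v)) = 0)
    (h₂ : Φ (P v) a = 0) : Φ (P w) a = 0 := by
  rw [← sub_add_cancel w v, map_add, map_add, h₁, zero_add, h₂]

variable {u : NormCocycle (L ≃ₐ[ℚ] L) (C L)} (hu : IsClassFormation p u)
  (hk : IsPGroup p (levelRes le).ker)

include hε hu hk in
/-- An idele map with divisible orders outside `S`, trivial at `S`, pairs to zero. -/
theorem dual_off_eq_zero (hLur : L.IsUnramifiedOutside S)
    (w : equivHom (C := J K) hε.isStable_ker)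
    (hw : ∀ x, w.1 (mulP hε.smul_mem x) ∈ PT.divOrd K p (S : Set Nat.Primes))
    (hwS : ∀ s, w.1 s ∈ supportedIn K (S : Set Nat.Primes)ᶜ) :
    dual hε le hu hk (projHom hε w) = 0 := by
  classical
  choose z hzs hz using fun i : ι =>
    exists_root_norms hp.out.ne_zero (hw (Lat.e i (1 : K ≃ₐ[ℚ] K)))
  let Y : Lat (K ≃ₐ[ℚ] K) ι →+ J K := Lat.ofBasis fun i x => x • z i
  have hY : ∀ (g : K ≃ₐ[ℚ] K) x, Y (g • x) = g • Y x := fun g =>
    Lat.map_smul_of_basis Y g fun i x => by rw [Lat.ofBasis_e, Lat.ofBasis_e, mul_smul]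
  have hYs : ∀ x, Y x ∈ supportedIn K (S : Set Nat.Primes)ᶜ := fun x => by
    rw [Lat.eq_sum x, map_sum]
    refine sum_mem fun r _ => ?_
    rw [map_zsmul, Lat.ofBasis_e]
    exact zsmul_mem (smul_mem_supportedIn _ (hzs _)) _
  let N : AddSubgroup (Lat (K ≃ₐ[ℚ] K) ι) :=
    { carrier := {x | ∀ q ∉ (S : Set Nat.Primes), ∀ g,
        PT.normAt K q g (Y x) ^ p = PT.normAt K q g (w.1 (mulP hε.smul_mem x))}
      zero_mem' := fun q _ g => by simp only [map_zero, PT.normAt_zero, one_pow]
      add_mem' := fun {x y} hx hy q hq g => by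
        rw [map_add, map_add, map_add, PT.normAt_add, PT.normAt_add, mul_pow, hx q hq g, hy q hq g]
      neg_mem' := fun {x} hx q hq g => by
        rw [map_neg, map_neg, map_neg, PT.normAt_neg, PT.normAt_neg, inv_pow, hx q hq g] }
  have hN : ∀ x, x ∈ N := fun x => by
    rw [Lat.eq_sum x]
    refine sum_mem fun r _ => zsmul_mem (fun q hq g => ?_) _
    show PT.normAt K q g (Y (Lat.e r.1 r.2)) ^ p = _
    rw [show Lat.e r.1 r.2 = r.2 • (Lat.e r.1 1 : Lat (K ≃ₐ[ℚ] K) ι) by rw [Lat.smul_e, mul_one],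
      hY, ← smulS_mulP hε.isStable_ker, w.2, Lat.ofBasis_e, one_smul, ← res_lift K r.2,
      PT.normAt_smul_lift, PT.normAt_smul_lift]
    exact hz r.1 q hq _
  have hYe : IsEquivariantOn hε.isStable_ker (Y.comp ε.ker.subtype) := fun g s => hY g _
  let wY : equivHom (C := J K) hε.isStable_ker := ⟨_, hYe⟩
  have hu3 : ∀ s, (w - wY).1 s ∈ unitsOff K (S : Set Nat.Primes) := fun s => by
    refine PT.mem_unitsOff_of_mem (sub_mem (hwS s) (hYs _)) fun q hq g => ?_
    have h1 := hN (s : Lat (K ≃ₐ[ℚ] K) ι) q hq g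
    rw [mulP_coe, map_nsmul, PT.normAt_nsmul] at h1
    have h2 : PT.normAt K q g (Y (s : Lat (K ≃ₐ[ℚ] K) ι)) = PT.normAt K q g (w.1 s) :=
      (pow_left_inj₀ (norm_nonneg _) (norm_nonneg _) hp.out.ne_zero).1 h1
    show PT.normAt K q g (w.1 s - Y (s : Lat (K ≃ₐ[ℚ] K) ι)) = 1
    rw [sub_eq_add_neg, PT.normAt_add, PT.normAt_neg, h2]
    exact mul_inv_cancel₀ (norm_ne_zero_iff.mpr (Units.ne_zero _))
  have h1 : dual hε le hu hk (projHom hε wY) = 0 :=
    theta_eq_zero_of_ext (levelSystem le hu hk) hε _ ((proj K).comp Y)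
      (fun g x => by simp only [AddMonoidHom.comp_apply, hY, proj_smul]) fun s => rfl
  have h2 : dual hε le hu hk (projHom hε (w - wY)) = 0 :=
    dual_unitsOff hε le hu hk
      (fun q hq => (PT.isUnramifiedOutside_iff L S).1 hLur q (by simpa using hq)) _ hu3
  exact (congrArg (fun z => dual hε le hu hk (projHom hε z)) (sub_add_cancel w wY).symm).trans
    (((congrArg (dual hε le hu hk) (map_add (projHom hε) _ _)).trans (map_add _ _ _)).trans
      (by rw [h1, h2, add_zero]))

include hε hu hk in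
/-- Maps linked to zero pair to zero with locally trivial cocycles. -/
theorem dual_eq_zero_of_linked_zero (hLur : L.IsUnramifiedOutside S)
    {f : equivHom (C := C K) hε.isStable_ker} (hl : PT.Linked hε S 0 f.1)
    (a : levelCocycles (levelRes le) A) (ha : ∀ q ∈ S, a ∈ trivAt le A q) :
    dual hε le hu hk f a = 0 := by
  classical
  obtain ⟨w, rfl, hw⟩ := exists_lift_of_linked_zero hε hl
  let wS := partHom hε (S : Set Nat.Primes) w
  have hval : ∀ s q σ, q ∈ (S : Set Nat.Primes) →
      val (wS.1 s).toMul q σ = val (w.1 s).toMul q σ :=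
    fun s q σ hq => (val_partAt _ _ q σ).trans (if_pos hq)
  have h2 : dual hε le hu hk (projHom hε (w - wS)) = 0 := by
    refine dual_off_eq_zero hε hu hk hLur (w - wS) (fun x q hq g => ?_) fun s q hq σ => ?_
    · obtain ⟨n, hn⟩ := hw x q hq g
      refine ⟨n, ?_⟩
      show PT.normAt K q g (w.1 _ - wS.1 _) = _
      have h1 : PT.normAt K q g (wS.1 (mulP hε.smul_mem x)) = 1 :=
        PT.normAt_of_supported (partAt_mem_supportedIn _ (w.1 _)) hq g
      rw [sub_eq_add_neg, PT.normAt_add, PT.normAt_neg, hn, h1, inv_one, mul_one]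
    · rw [Set.mem_compl_iff, not_not] at hq
      show val (w.1 s - wS.1 s).toMul q σ = 1
      rw [sub_eq_add_neg, PT.val_add_J, PT.val_neg_J, hval s q σ hq, mul_inv_cancel]
  exact apply_eq_zero_of_split (dual hε le hu hk) (projHom hε) w wS a h2
    (dual_local hε le hu hk S wS (fun s => partAt_mem_supportedIn _ _) a fun q hq => ha q hq)

include hε hu hk in
/-- A cocycle linked to a map which kills the locally trivial cocycles is a coboundary. -/
theorem exists_cochain_of_dual_eq_zero (hp2 : p ≠ 2) (hpS : pPrime p ∈ S) {ζ : QBar}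
    (hζ : IsPrimitiveRoot ζ p) (hζK : ζ ∈ K) (hL : LevelField p S le)
    [Fintype (levelRes le).ker] {c : GQ × GQ → PT.DualMod K A}
    {f : equivHom (C := C K) hε.isStable_ker} (hl : PT.Linked hε S c f.1)
    (hf : ∀ a, (∀ q ∈ S, a ∈ trivAt le A q) → dual hε le hu hk f a = 0) :
    ∃ m : GQ → PT.DualMod K A, IsLevelConstantS₁ S m ∧ ∀ g h, c (g, h) = PT.dd m g h := by
  classical
  have hK : K.IsUnramifiedOutside S := hL.ur.of_le le
  have hζL : IsPrimitiveRoot (⟨ζ, le hζK⟩ : L) p :=
    IsPrimitiveRoot.of_map_of_injective (f := L.val) hζ L.val.injective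
  obtain ⟨w, hw, hwd⟩ := exists_realise le hε hu hk hp2 hζL S (dual hε le hu hk f) hf
  have hex := exists_of_dual_eq_zero hε le hu hk
    (T := (S : Set Nat.Primes)) (hL.norm_hyp hp2 hζ hζK hpS) (f - projHom hε w)
    (by rw [map_sub, hwd, sub_self])
  obtain ⟨Y, w', hY, hw', he⟩ := hex
  refine exists_cochain_of_linked hε hpS hK Y hY (w' + w) (fun x => ?_) ?_ hl
  · show w'.1 _ + w.1 _ ∈ _
    refine PT.unitsOutside_le_divOrd p _ (add_mem (fun q hq g => ?_)
      fun q hq g => PT.normAt_of_supported (hw _) hq g)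
    rw [← PT.norm_val_eq]
    exact (mem_unitGroup _).1 (hw' _ q _).1
  · have he' : f.1 - (proj K).comp w.1 = Y.comp ε.ker.subtype + (proj K).comp w'.1 := he
    show f.1 = Y.comp ε.ker.subtype + (proj K).comp (w'.1 + w.1)
    rw [AddMonoidHom.comp_add, ← add_assoc, ← he', sub_add_cancel]

end Fermat.Agent.CFT.PTLevel
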