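import Fermat.Agent.CFT.PTLevel.Local
import Fermat.Agent.CFT.PT.SemiH2
import Fermat.Agent.CFT.PT.Arith.Frobenius
import Fermat.Agent.CFT.Idele.SecondIneq

/-!
# Locally trivial cocycles are linked to maps into classes
-/

set_option autoImplicit false
set_option linter.unusedSectionVars false
set_option linter.style.haveILetI false

noncomputable section

namespace Fermat.Agent.CFT.PTLevel

open ExtCitation Fermat.Agent.Arith IntermediateField Fermat.Agent.CFT.Local Fermat.Agent.CFT.Idele
open Fermat.Agent.CFT.Duality groupCohomology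

local instance factPrimeLocTriv (q : Nat.Primes) : Fact (q : ℕ).Prime := ⟨q.2⟩

section Cyclic

/-- An inflated `p`-torsion cocycle on a cyclic group is a coboundary, if the inflation multiplies
the order of the generator by a multiple of `p`. -/
theorem exists_cochain_zpowers {G X : Type*} [Group G] [Finite G] [AddCommGroup X]
    [DistribMulAction G X] {p : ℕ} (hX : ∀ x : X, p • x = 0) (c : G × G → X) (hc : IsCocycle₂ c)
    (δ : G) {n : ℕ} (hn : ∀ g h, c (g * δ ^ n, h) = c (g, h)) (hpn : p * n ∣ orderOf δ) :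
    ∃ t : Subgroup.zpowers δ → X,
      ∀ a b : Subgroup.zpowers δ, (a : G) • t b - t (a * b) + t a = c ((a : G), (b : G)) := by
  classical
  let Q : ℕ → X := fun i => c (1, 1) - ∑ j ∈ Finset.range i, c (δ ^ j, δ)
  have hQs : ∀ i, Q (i + 1) = Q i - c (δ ^ i, δ) := fun i => by
    simp only [Q, Finset.sum_range_succ]
    abel
  have hdd : ∀ i j, δ ^ i • Q j - Q (i + j) + Q i = c (δ ^ i, δ ^ j) := fun i j => by
    induction j with
    | zero =>
      have e1 := hc (δ ^ i) 1 1
      rw [mul_one, one_mul, add_right_cancel_iff] at e1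
      simp only [Q, Finset.range_zero, Finset.sum_empty, sub_zero, add_zero, pow_zero,
        ← e1, sub_add_cancel]
    | succ j ih =>
      have e1 := hc (δ ^ i) (δ ^ j) δ
      rw [← pow_add, ← pow_succ] at e1
      rw [← add_assoc, hQs, hQs, smul_sub]
      rw [← ih] at e1
      rw [← sub_eq_zero] at e1 ⊢
      rw [← e1]
      abel
  have hper : ∀ i, Q (i + orderOf δ) = Q i := fun i => by
    obtain ⟨k, hk⟩ := hpn
    have hshift : ∀ m j, c (δ ^ (j + n * m), δ) = c (δ ^ j, δ) := fun m j => by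
      rw [mul_comm]
      exact Function.Periodic.nat_mul (f := fun j => c (δ ^ j, δ)) (c := n)
        (fun j => by simp only [pow_add, hn]) m j
    have hblock : ∀ (j m : ℕ), ∑ l ∈ Finset.range (n * m), c (δ ^ (j + l), δ) =
        m • ∑ l ∈ Finset.range n, c (δ ^ (j + l), δ) := fun j m => by
      induction m with
      | zero => simp
      | succ m ih =>
        rw [Nat.mul_succ, Finset.sum_range_add, ih, succ_nsmul]
        refine congrArg _ (Finset.sum_congr rfl fun l _ => ?_)
        rw [show j + (n * m + l) = j + l + n * m by ring, hshift]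
    show c (1, 1) - _ = c (1, 1) - _
    rw [Finset.sum_range_add, hk, show p * n * k = n * (k * p) by ring, hblock, mul_nsmul', hX,
      nsmul_zero, add_zero]
  have hQ : ∀ i j, δ ^ i = δ ^ j → Q i = Q j := fun i j h => by
    rw [← Function.Periodic.map_mod_nat hper i, pow_eq_pow_iff_modEq.1 h,
      Function.Periodic.map_mod_nat hper j]
  have hsur : ∀ a : Subgroup.zpowers δ, ∃ i : ℕ, δ ^ i = (a : G) := fun a =>
    (isOfFinOrder_of_finite δ).mem_powers_iff_mem_zpowers.2 a.2
  choose i hi using hsur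
  refine ⟨fun a => Q (i a), fun a b => ?_⟩
  show (a : G) • Q (i b) - Q (i (a * b)) + Q (i a) = _
  rw [show Q (i (a * b)) = Q (i a + i b) from hQ _ _ (by rw [pow_add, hi, hi, hi, Subgroup.coe_mul]),
    ← hi a, ← hi b]
  exact hdd _ _

end Cyclic

variable {K L : IntermediateField ℚ QBar} [FiniteDimensional ℚ K] [Normal ℚ K]
  [FiniteDimensional ℚ L] [Normal ℚ L] {le : K ≤ L}
  {A ι : Type*} [AddCommGroup A] [DistribMulAction (K ≃ₐ[ℚ] K) A] [Fintype ι] {p : ℕ}
  [hp : Fact p.Prime] {ε : Lat (K ≃ₐ[ℚ] K) ι →+ A} {S : Finset Nat.Primes}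

section Semilocal

variable (q : Nat.Primes) {L' : IntermediateField ℚ QBar} [FiniteDimensional ℚ L'] [Normal ℚ L']

/-- The inflation of a cochain. -/
def inflate (h' : L ≤ L') (c : (L ≃ₐ[ℚ] L) × (L ≃ₐ[ℚ] L) → PT.TwHom (levelRes le) A (Additive Lˣ))
    (x : (L' ≃ₐ[ℚ] L') × (L' ≃ₐ[ℚ] L')) : PT.TwHom (levelRes (le.trans h')) A (Additive L'ˣ) :=
  PT.TwHom.of ((PT.unitsIncl h').comp (c (levelRes h' x.1, levelRes h' x.2)).toHom)

theorem isCocycle₂_inflate (h' : L ≤ L')
    {c : (L ≃ₐ[ℚ] L) × (L ≃ₐ[ℚ] L) → PT.TwHom (levelRes le) A (Additive Lˣ)} (hc : IsCocycle₂ c) :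
    IsCocycle₂ (inflate h' c) := fun g h j => PT.TwHom.ext fun a => by
  have e := congr_arg (fun φ : PT.TwHom (levelRes le) A (Additive Lˣ) => PT.unitsIncl h' (φ a))
    (hc (levelRes h' g) (levelRes h' h) (levelRes h' j))
  simp only [PT.TwHom.add_apply, PT.TwHom.smul_apply, map_add] at e
  simp only [inflate, PT.TwHom.add_apply, PT.TwHom.smul_apply, PT.TwHom.of_apply,
    AddMonoidHom.comp_apply, PT.TwHom.toHom_apply, map_mul, PT.smul_unitsIncl,
    ← PT.levelRes_levelRes le h', map_inv]
  simp only [map_inv] at e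
  exact e

theorem locPart_partAt (x : J L') : locPart L' q (partAt {q} x) = locPart L' q x := by
  classical
  rw [locPart_apply, locPart_apply]
  exact congrArg (fun y => loc' L' q (Additive.ofMul y))
    ((val_partAt {q} x q 1).trans (if_pos rfl))

/-- A trivialisation on the decomposition group gives one at the prime. -/
theorem locTriv_of_decomp (h' : L ≤ L')
    (hur : q ∉ S → inertia (E L' q) = ⊥)
    (c : (L ≃ₐ[ℚ] L) × (L ≃ₐ[ℚ] L) → PT.TwHom (levelRes le) A (Additive Lˣ)) (hc : IsCocycle₂ c)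
    (T : decomp L' q → PT.TwHom (levelRes (le.trans h')) A (Additive L'ˣ))
    (hT : ∀ a b : decomp L' q, (a : L' ≃ₐ[ℚ] L') • T b - T (a * b) + T a =
      inflate h' c ((a : L' ≃ₐ[ℚ] L'), (b : L' ≃ₐ[ℚ] L'))) :
    PT.LocTriv S c q := by
  classical
  haveI := Fintype.ofFinite ((L' ≃ₐ[ℚ] L') ⧸ decomp L' q)
  refine ⟨L', inferInstance, inferInstance, h', fun hq => ⟨hur hq, fun g x => ?_⟩, ?_⟩
  · obtain ⟨n, hn⟩ := PT.exists_norm_eq_zpow L' (hur hq) (val x.toMul q (res L' g))
    exact ⟨n, (PT.norm_val_eq L' x q g).symm.trans hn⟩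
  let π := levelRes (le.trans h')
  let Z := PT.TwHom π A (J L')
  let P : Z →+ Z := PT.TwHom.map (locPart L' q)
  let Zs : AddSubgroup Z :=
    { carrier := {z | ∀ a, z a ∈ supportedIn L' {q}}
      zero_mem' := fun a => zero_mem _
      add_mem' := fun {z z'} hz hz' a => add_mem (hz a) (hz' a)
      neg_mem' := fun {z} hz a => neg_mem (hz a) }
  have hloc : ∀ x : J L', locPart L' q x ∈ supportedIn L' {q} := fun x q' hq' σ => by
    rw [locPart_apply]
    exact val_locIdl_of_ne q _ (by simpa using hq') σ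
  have hself : ∀ y : (E L' q)ˣ, val (locIdl q y) q (1 : L' ≃ₐ[ℚ] L') = y := fun y => by
    rw [← map_one (toGlobal (q : ℕ) L'), val_locIdl_self, one_smul]
  have hP : PT.SemiProj (decomp L' q) P Zs := by
    refine ⟨fun z a => hloc _, fun g z hz a => smul_mem_supportedIn g (hz _),
      fun d hd z => PT.TwHom.ext fun a => locPart_smul q hd _, fun z => PT.TwHom.ext fun a => ?_,
      fun g hg z => PT.TwHom.ext fun a => ?_, fun z hz h => PT.TwHom.ext fun a => ?_⟩
    · show locPart L' q (locPart L' q (z a)) = _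
      rw [locPart_apply, locPart_apply]
      exact congrArg (fun y => loc' L' q (Additive.ofMul y)) (hself _)
    · show locPart L' q (g • locPart L' q (z _)) = 0
      rw [locPart_apply, val_smul_J, one_mul, locPart_apply]
      refine (congrArg (fun y => loc' L' q (Additive.ofMul y))
        (val_locIdl_of_notMem q _ hg)).trans ?_
      exact map_zero _
    · refine J_ext fun q' σ => ?_
      rcases eq_or_ne q' q with rfl | hne
      · have e : val (locPart L' q' ((σ • z : Z) (π σ • a))).toMul q' (1 : L' ≃ₐ[ℚ] L') = 1 :=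
          (congr_arg (fun η : Z => val (η (π σ • a)).toMul q' (1 : L' ≃ₐ[ℚ] L')) (h σ)).trans
            (val_one q' _)
        have e2 : (σ • z : Z) (π σ • a) = σ • z a := by
          show σ • z (π σ⁻¹ • π σ • a) = _
          rw [smul_smul, ← map_mul, inv_mul_cancel, map_one, one_smul]
        rw [e2] at e
        have e3 := (hself (val (σ • z a).toMul q' 1)).symm.trans e
        rw [val_smul_J, one_mul] at e3
        exact e3.trans (val_one q' σ).symm
      · exact (hz a q' (by simpa using hne) σ).trans (val_one q' σ).symm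
  let C' : (L' ≃ₐ[ℚ] L') × (L' ≃ₐ[ℚ] L') → Z := fun x =>
    PT.TwHom.map ((partAt {q}).comp (diag L')) (inflate h' c x)
  have hmap : ∀ (g : L' ≃ₐ[ℚ] L') φ,
      PT.TwHom.map ((partAt {q}).comp (diag L')) (g • φ : PT.TwHom π A (Additive L'ˣ)) =
        g • (PT.TwHom.map ((partAt {q}).comp (diag L')) φ : Z) := fun g φ =>
    PT.TwHom.map_smul _ (fun g x => by
      simp only [AddMonoidHom.comp_apply, diag_smul, partAt_smul]) g φ
  have hC : IsCocycle₂ C' := fun g h j => by
    simp only [C']
    rw [← hmap, ← map_add, ← map_add, isCocycle₂_inflate h' hc g h j]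
  let m : decomp L' q → Z := fun d => PT.TwHom.map ((locPart L' q).comp (diag L')) (T d)
  obtain ⟨t, hts, ht⟩ := hP.exists_h2 C' hC
    (fun x a => partAt_mem_supportedIn _ _) m (fun d => PT.TwHom.ext fun a => by
      show locPart L' q (locPart L' q _) = _
      rw [locPart_apply, locPart_apply]
      exact congrArg (fun y => loc' L' q (Additive.ofMul y)) (hself _))
    fun a b => by
      have hmap' : (a : L' ≃ₐ[ℚ] L') • m b =
          PT.TwHom.map ((locPart L' q).comp (diag L')) ((a : L' ≃ₐ[ℚ] L') • T b) :=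
        PT.TwHom.ext fun x => by
          simp only [m, PT.TwHom.map_apply, PT.TwHom.smul_apply, AddMonoidHom.comp_apply, diag_smul,
            locPart_smul q a.2]
          rfl
      rw [hmap']
      simp only [m]
      rw [← map_sub, ← map_add, hT]
      exact PT.TwHom.ext fun x => (locPart_partAt q _).symm
  refine ⟨t, fun g a => hts g a, fun g h a => ?_⟩
  refine (congr_arg (fun η : Z => η a) (ht g h)).trans ?_
  show partAt {q} (diag L' (PT.unitsIncl h' (c (levelRes h' g, levelRes h' h) a))) = _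
  rw [PT.diag_unitsIncl]

end Semilocal

/-- A cocycle trivial on a decomposition group is trivial at the prime. -/
theorem locTriv_of_local {ζ : QBar} (hζ : IsPrimitiveRoot ζ p) (hζK : ζ ∈ K)
    (hA : ∀ a : A, p • a = 0) {q : Nat.Primes} (hq : q ∈ S)
    (c : (L ≃ₐ[ℚ] L) × (L ≃ₐ[ℚ] L) → PT.TwHom (levelRes le) A (Additive Lˣ)) (hc : IsCocycle₂ c)
    (t : (Ω q ≃ₐ[ℚ_[(q : ℕ)]] Ω q) → PT.DualMod K A) (ht : IsLevelConstant₁ (loc q) t)
    (htc : ∀ g h, PT.toQHom (c (res L (loc q g), res L (loc q h))) =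
      loc q g • t h - t (g * h) + t g) : PT.LocTriv S c q := by
  classical
  obtain ⟨F, hF, hFt⟩ := ht
  obtain ⟨L', hfd, hn, hle⟩ := exists_normal_ge_family (fun b : Bool => cond b L F) fun b => by
    cases b
    · exact hF
    · exact inferInstanceAs (FiniteDimensional ℚ L)
  have h' : L ≤ L' := hle true
  have hsur : ∀ d : decomp L' q, ∃ τ, res L' (loc q τ) = (d : L' ≃ₐ[ℚ] L') := fun d => by
    obtain ⟨s, hs⟩ := MonoidHom.mem_range.1 d.2
    obtain ⟨τ, rfl⟩ := AlgEquiv.restrictNormalHom_surjective (K₁ := E L' q) (Ω q) s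
    exact ⟨τ, (toGlobal_restrict (q : ℕ) L' τ).symm.trans hs⟩
  choose τ hτ using hsur
  have hconst : ∀ x y, res L' (loc q x) = res L' (loc q y) → t x = t y := fun x y e => by
    conv_rhs => rw [← mul_inv_cancel_left x y]
    refine (hFt x _ ?_).symm
    rw [map_mul, map_inv]
    exact IntermediateField.fixingSubgroup_antitone (hle false) ((res_eq_iff L').1 e)
  choose T hT using fun d : decomp L' q =>
    exists_toQHom_eq (L := L') (le.trans h') hζ hζK hA (t (τ d))
  refine locTriv_of_decomp q h' (fun h => absurd hq h) c hc T fun a b => PT.toQHom_injective ?_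
  have e1 : t (τ (a * b)) = t (τ a * τ b) := hconst _ _ (by
    rw [hτ, map_mul (loc q), map_mul (res L'), hτ, hτ, Subgroup.coe_mul])
  rw [map_add, map_sub, ← hτ a, ← PT.smul_toQHom, hT, hT, hT, e1, ← htc]
  refine PT.TwHom.ext fun x => ?_
  simp only [inflate, PT.toQHom_apply, PT.TwHom.of_apply, AddMonoidHom.comp_apply,
    PT.TwHom.toHom_apply, PT.unitsToQ_unitsIncl]
  rw [← hτ b, levelRes_res, levelRes_res]

/-- A cocycle of an unramified level is trivial at an unramified prime. -/
theorem locTriv_of_unramified (hA : ∀ a : A, p • a = 0) {q : Nat.Primes}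
    (hq : inertia (E L q) = ⊥)
    (c : (L ≃ₐ[ℚ] L) × (L ≃ₐ[ℚ] L) → PT.TwHom (levelRes le) A (Additive Lˣ)) (hc : IsCocycle₂ c) :
    PT.LocTriv S c q := by
  obtain ⟨L', _, _, h', δ, hin, hrange, hdvd⟩ :=
    PT.exists_frobenius_enlargement (p := p) (L := L) (q : ℕ) hq
  have hkill : ∀ φ : PT.TwHom (levelRes (le.trans h')) A (Additive L'ˣ), p • φ = 0 := fun φ =>
    PT.TwHom.ext fun a => by
      rw [PT.TwHom.nsmul_apply, PT.nsmul_apply_eq_zero hA, PT.TwHom.zero_apply]
  have e0 : levelRes h' δ = resTo h' δ := by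
    obtain ⟨g, rfl⟩ := AlgEquiv.restrictNormalHom_surjective (K₁ := L') QBar δ
    rw [levelRes_res, resTo_res]
  have hdvd' : p * orderOf (levelRes h' δ) ∣ orderOf δ := by rw [e0]; exact hdvd
  obtain ⟨t, ht⟩ := exists_cochain_zpowers hkill (inflate h' c) (isCocycle₂_inflate h' hc) δ
    (n := orderOf (levelRes h' δ)) (fun g h => by
      simp only [inflate, map_mul, map_pow, pow_orderOf_eq_one, mul_one]) hdvd'
  let ι' := Subgroup.inclusion (hrange.le : decomp L' q ≤ Subgroup.zpowers δ)
  refine locTriv_of_decomp q h' (fun _ => hin) c hc (fun d => t (ι' d)) fun a b => ?_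
  have e := ht (ι' a) (ι' b)
  rw [← map_mul] at e
  exact e

variable (hε : Presentation p ε)

include hε in
/-- A cocycle trivial at the places over `S` is linked to a map into classes. -/
theorem exists_linked_of_local (hp2 : p ≠ 2) {ζ : QBar} (hζ : IsPrimitiveRoot ζ p) (hζK : ζ ∈ K)
    (hK : K.IsUnramifiedOutside S) (c : GQ × GQ → PT.DualMod K A) (hc : IsCocycle₂ c)
    (hcS : IsLevelConstantS₂ S c)
    (hloc : ∀ q ∈ S, ∃ t : (Ω q ≃ₐ[ℚ_[(q : ℕ)]] Ω q) → PT.DualMod K A,
      IsLevelConstant₁ (loc q) t ∧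
        ∀ g h, c (loc q g, loc q h) = loc q g • t h - t (g * h) + t g) :
    ∃ f : equivHom (C := C K) hε.isStable_ker, PT.Linked hε S c f.1 := by
  classical
  obtain ⟨F, hF, hFc⟩ := hcS
  obtain ⟨L, _, _, hLur, hle⟩ := PT.exists_normal_ur_ge (hF.sup hK)
  have le : K ≤ L := le_sup_right.trans hle
  have hconst : ∀ g g' h h', res L g = res L g' → res L h = res L h' → c (g, h) = c (g', h') :=
    fun g g' h h' e1 e2 => by
      conv_rhs => rw [← mul_inv_cancel_left g g', ← mul_inv_cancel_left h h']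
      refine (hFc g h _ _ ?_ ?_).symm
      · exact IntermediateField.fixingSubgroup_antitone (le_sup_left.trans hle)
          ((res_eq_iff L).1 e1)
      · exact IntermediateField.fixingSubgroup_antitone (le_sup_left.trans hle)
          ((res_eq_iff L).1 e2)
  choose cL hcL using fun x : (L ≃ₐ[ℚ] L) × (L ≃ₐ[ℚ] L) =>
    exists_toQHom_eq (L := L) le hζ hζK hε.killed (c (lift L x.1, lift L x.2))
  have hcQ : ∀ g h, c (g, h) = PT.toQHom (cL (res L g, res L h)) := fun g h => by
    rw [hcL]
    exact hconst _ _ _ _ (res_lift L _).symm (res_lift L _).symm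
  have hcc : IsCocycle₂ cL := fun g h j => by
    obtain ⟨g, rfl⟩ := AlgEquiv.restrictNormalHom_surjective (K₁ := L) QBar g
    obtain ⟨h, rfl⟩ := AlgEquiv.restrictNormalHom_surjective (K₁ := L) QBar h
    obtain ⟨j, rfl⟩ := AlgEquiv.restrictNormalHom_surjective (K₁ := L) QBar j
    refine PT.toQHom_injective ?_
    rw [map_add, map_add, ← PT.smul_toQHom, ← map_mul, ← map_mul, ← hcQ, ← hcQ, ← hcQ, ← hcQ]
    exact hc g h j
  have hlt : ∀ q, PT.LocTriv S cL q := fun q => by
    by_cases hq : q ∈ S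
    · obtain ⟨t, ht, htc⟩ := hloc q hq
      exact locTriv_of_local hζ hζK hε.killed hq cL hcc t ht fun g h => by rw [← hcQ, htc]
    · exact locTriv_of_unramified hε.killed ((PT.isUnramifiedOutside_iff L S).1 hLur q hq) cL hcc
  have hζL : IsPrimitiveRoot (⟨ζ, le hζK⟩ : L) p :=
    IsPrimitiveRoot.of_map_of_injective (f := L.val) hζ L.val.injective
  obtain ⟨f, b, e, hl⟩ := PT.exists_linked hε
    (fun P hP => (Idele.stepAxioms L hp2 hζL).h1Zero P hP) cL hcc hlt c hcQ
  exact ⟨f, L, inferInstance, inferInstance, le, hLur, b, e, hl⟩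

end Fermat.Agent.CFT.PTLevel
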