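import Fermat.Agent.CFT.PTLevel.Construct
import Fermat.Agent.CFT.PT.Arith.LocalRoot

/-!
# Local triviality of the cocycles of links

A cocycle linked to a map into classes is a coboundary on every decomposition group.
-/

set_option autoImplicit false
set_option linter.unusedSectionVars false
set_option linter.style.haveILetI false

noncomputable section

namespace Fermat.Agent.CFT.PTLevel

open ExtCitation Fermat.Agent.Arith IntermediateField Fermat.Agent.CFT.Local Fermat.Agent.CFT.Idele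
open Fermat.Agent.CFT.Duality groupCohomology

local instance factPrimeLocal (q : Nat.Primes) : Fact (q : ℕ).Prime := ⟨q.2⟩

/-- Finitely many finite fields lie in a finite normal one. -/
theorem exists_normal_ge_family {κ : Type*} [Finite κ] (F : κ → IntermediateField ℚ QBar)
    (hF : ∀ k, FiniteDimensional ℚ (F k)) :
    ∃ L : IntermediateField ℚ QBar, FiniteDimensional ℚ L ∧ Normal ℚ L ∧ ∀ k, F k ≤ L := by
  haveI := hF
  refine ⟨IntermediateField.normalClosure ℚ (⨆ k, F k : IntermediateField ℚ QBar) QBar,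
    inferInstance, PT.normal_normalClosure _,
    fun k => (le_iSup F k).trans (IntermediateField.le_normalClosure _)⟩

/-- Functions on a finite group of automorphisms are level constant. -/
theorem isLevelConstant₁_of_finite (H : Subgroup GQ) [Finite H] {X : Type*} (f : H → X) :
    IsLevelConstant₁ H.subtype f := by
  classical
  have hmove : ∀ h : H, ∃ x : QBar, (h : GQ) x = x → h = 1 := fun h =>
    (em (∀ x, (h : GQ) x = x)).elim (fun e => ⟨0, fun _ => Subtype.ext (AlgEquiv.ext e)⟩)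
      fun e => (not_forall.1 e).imp fun x hx e' => absurd e' hx
  choose x hx using hmove
  refine ⟨IntermediateField.adjoin ℚ (Set.range x),
    IntermediateField.finiteDimensional_adjoin fun e _ => Algebra.IsIntegral.isIntegral e,
    fun g s hs => ?_⟩
  rw [hx s ((IntermediateField.mem_fixingSubgroup_iff _ _).1 hs (x s)
    (IntermediateField.subset_adjoin _ _ ⟨s, rfl⟩)), mul_one]

/-- A `p`-torsion cocycle on a finite group of order prime to `p` is a coboundary. -/
theorem exists_cochain_of_coprime {G X : Type*} [Group G] [Finite G] [AddCommGroup X]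
    [DistribMulAction G X] {p : ℕ} [hp : Fact p.Prime] (hX : ∀ x : X, p • x = 0)
    (hG : ¬ p ∣ Nat.card G) (c : G × G → X) (hc : IsCocycle₂ c) :
    ∃ t : G → X, ∀ g h, c (g, h) = PT.dd t g h := by
  haveI := Fintype.ofFinite G
  obtain ⟨a, b, hab⟩ : IsCoprime (Nat.card G : ℤ) (p : ℤ) :=
    Int.isCoprime_iff_nat_coprime.mpr
      (by simpa using (hp.out.coprime_iff_not_dvd.mpr hG).symm)
  let T : G → X := fun g => ∑ k : G, c (g, k)
  have hT : ∀ g h, PT.dd T g h = (Nat.card G : ℤ) • c (g, h) := fun g h => by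
    have e : g • T h + T g = T (g * h) + Fintype.card G • c (g, h) := by
      have e1 : ∑ k : G, c (g, h * k) = T g :=
        Fintype.sum_equiv (Equiv.mulLeft h) _ _ fun k => rfl
      rw [← e1, Finset.smul_sum, ← Finset.sum_add_distrib]
      simp only [T]
      rw [← Finset.card_univ, ← Finset.sum_const, ← Finset.sum_add_distrib]
      exact Finset.sum_congr rfl fun k _ => (hc g h k).symm
    rw [PT.dd, natCast_zsmul, Nat.card_eq_fintype_card, sub_add_eq_add_sub, sub_eq_iff_eq_add,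
      add_comm (Fintype.card G • c (g, h))]
    exact e
  refine ⟨fun g => a • T g, fun g h => ?_⟩
  have hkill : (p : ℤ) • c (g, h) = 0 := by rw [natCast_zsmul, hX]
  calc c (g, h) = (a * (Nat.card G : ℤ) + b * (p : ℤ)) • c (g, h) := by rw [hab, one_smul]
    _ = a • PT.dd T g h := by rw [hT, add_zsmul, mul_zsmul _ b, hkill, zsmul_zero, add_zero,
        mul_zsmul]
    _ = _ := by simp only [PT.dd, smul_comm g a, zsmul_add, zsmul_sub]

variable {K : IntermediateField ℚ QBar} [FiniteDimensional ℚ K] [Normal ℚ K]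
  {A ι : Type*} [AddCommGroup A] [DistribMulAction (K ≃ₐ[ℚ] K) A] [Fintype ι] {p : ℕ}
  [hp : Fact p.Prime] {ε : Lat (K ≃ₐ[ℚ] K) ι →+ A} (hε : Presentation p ε) {S : Finset Nat.Primes}

/-- Values of the Cartier dual are `p`-torsion. -/
theorem dualMod_killed (hA : ∀ a : A, p • a = 0) (φ : PT.DualMod K A) : p • φ = 0 :=
  PT.TwHom.ext fun a => by rw [PT.TwHom.nsmul_apply, ← map_nsmul, hA, map_zero, PT.TwHom.zero_apply]

/-- A cocycle is trivial at the archimedean place. -/
theorem exists_cochain_infinite (hp2 : p ≠ 2) (hA : ∀ a : A, p • a = 0)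
    (c : GQ × GQ → PT.DualMod K A) (hc : IsCocycle₂ c) :
    ∃ t : archimedeanDecomposition → PT.DualMod K A, IsLevelConstant₁ archimedeanLoc t ∧
      ∀ g h, c (archimedeanLoc g, archimedeanLoc h) =
        archimedeanLoc g • t h - t (g * h) + t g := by
  have hpow : (complexConjugation : GQ) ^ 2 = 1 := complexConjugation_sq
  haveI : Finite archimedeanDecomposition :=
    Finite.of_equiv _ (finEquivZPowers (isOfFinOrder_iff_pow_eq_one.2 ⟨2, two_pos, hpow⟩))
  have hcard : Nat.card archimedeanDecomposition ∣ 2 := by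
    rw [show Nat.card archimedeanDecomposition = orderOf (complexConjugation : GQ) from
      Nat.card_zpowers _]
    exact orderOf_dvd_of_pow_eq_one hpow
  obtain ⟨t, ht⟩ := exists_cochain_of_coprime (G := archimedeanDecomposition) (dualMod_killed hA)
    (fun h => hp2 ((Nat.prime_dvd_prime_iff_eq hp.out Nat.prime_two).1 (h.trans hcard)))
    (fun x => c ((x.1 : GQ), (x.2 : GQ))) fun g h j => hc g h j
  exact ⟨t, isLevelConstant₁_of_finite _ t, fun g h => ht g h⟩

variable (q : Nat.Primes)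

/-- The embedding of the units of `ℚ̄`. -/
def embQ : Additive QBarˣ →+ Additive (Ω q)ˣ :=
  MonoidHom.toAdditive (Units.map (emb q : QBar →* Ω q))

theorem embQ_injective : Function.Injective (embQ q) := fun _x _y h =>
  Additive.toMul.injective (Units.ext ((emb q).injective
    (congrArg (fun z : Additive (Ω q)ˣ => ((z.toMul : (Ω q)ˣ) : Ω q)) h)))

theorem smul_embQ (τ : Ω q ≃ₐ[ℚ_[(q : ℕ)]] Ω q) (x : Additive QBarˣ) :
    τ • embQ q x = embQ q (loc q τ • x) :=
  Additive.toMul.injective (Units.ext (emb_loc q τ _).symm)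

/-- The value at the distinguished place over `q`. -/
def valQ (L : IntermediateField ℚ QBar) [FiniteDimensional ℚ L] [Normal ℚ L] :
    J L →+ Additive (Ω q)ˣ :=
  AddMonoidHom.mk' (fun x => Additive.ofMul ((x.toMul : PreIdele) q 1)) fun _ _ => rfl

theorem valQ_diag (L : IntermediateField ℚ QBar) [FiniteDimensional ℚ L] [Normal ℚ L]
    (a : Additive Lˣ) : valQ q L (diag L a) = embQ q (PT.unitsToQ L a) :=
  Additive.toMul.injective (Units.ext rfl)

theorem smul_valQ (L : IntermediateField ℚ QBar) [FiniteDimensional ℚ L] [Normal ℚ L]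
    (τ : Ω q ≃ₐ[ℚ_[(q : ℕ)]] Ω q) (x : J L) :
    valQ q L (res L (loc q τ) • x) = τ • valQ q L x := by
  refine Additive.toMul.injective (Units.ext ?_)
  have e := coe_smul_idl L (res L (loc q τ)) x.toMul rfl
  show ((((res L (loc q τ) • x.toMul : idl L) : PreIdele) q 1 : (Ω q)ˣ) : Ω q) = _
  rw [e, transl_apply, one_mul]
  have := (mem_idl.1 x.toMul.2).1 q τ 1
  rw [mul_one] at this
  exact this

theorem valQ_mem (L : IntermediateField ℚ QBar) [FiniteDimensional ℚ L] [Normal ℚ L] (x : J L) :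
    (((valQ q L x).toMul : (Ω q)ˣ) : Ω q) ∈ localField (q : ℕ) L :=
  value_mem_E L x.toMul.2 q 1

/-- The values of a dual element in the local field. -/
def locDual : PT.DualMod K A →+ PT.TwHom ((res K).comp (loc q)) A (Additive (Ω q)ˣ) :=
  AddMonoidHom.mk' (fun φ => PT.TwHom.of ((embQ q).comp φ.toHom))
    fun φ ψ => PT.TwHom.ext fun a => map_add (embQ q) (φ a) (ψ a)

theorem locDual_smul (τ : Ω q ≃ₐ[ℚ_[(q : ℕ)]] Ω q) (φ : PT.DualMod K A) :
    locDual q (loc q τ • φ) = τ • locDual q φ := PT.TwHom.ext fun a => by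
  show embQ q ((loc q τ • φ) a) = τ • embQ q (φ _)
  rw [smul_embQ, PT.TwHom.smul_apply]
  simp only [MonoidHom.comp_apply, map_inv]
  rfl

theorem locDual_injective : Function.Injective (locDual (K := K) (A := A) q) := fun _φ _ψ h =>
  PT.TwHom.ext fun a => embQ_injective q (congr_arg (fun η : PT.TwHom _ A _ => η a) h)

include hε in
/-- The cocycle of a link is trivial on every decomposition group. -/
theorem exists_local_of_linked (hp2 : p ≠ 2) {ζ : QBar} (hζ : IsPrimitiveRoot ζ p)
    {c : GQ × GQ → PT.DualMod K A} {f : ε.ker →+ C K} (hl : PT.Linked hε S c f) :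
    ∃ t : (Ω q ≃ₐ[ℚ_[(q : ℕ)]] Ω q) → PT.DualMod K A, IsLevelConstant₁ (loc q) t ∧
      ∀ g h, c (loc q g, loc q h) = loc q g • t h - t (g * h) + t g := by
  classical
  obtain ⟨L, _, _, le, -, b, e, hl⟩ := hl
  set π := (res K).comp (loc q) with hπ
  have hπL : ∀ τ, levelRes le (res L (loc q τ)) = π τ := fun τ => levelRes_res le _
  obtain ⟨B, hB⟩ := exists_extend_units (F := Ω q) ε.ker ((valQ q L).comp b)
  have hBs : ∀ s : ε.ker, B s = valQ q L (b s) := hB
  let Bw : PT.TwHom π (Lat (K ≃ₐ[ℚ] K) ι) (Additive (Ω q)ˣ) := PT.TwHom.of B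
  let E₀ : (Ω q ≃ₐ[ℚ_[(q : ℕ)]] Ω q) → PT.TwHom π (Lat (K ≃ₐ[ℚ] K) ι) (Additive (Ω q)ˣ) :=
    fun τ => PT.TwHom.of (((embQ q).comp (PT.unitsToQ L)).comp (e (res L (loc q τ))).toHom) -
      (τ • Bw - Bw)
  have hker : ∀ τ (s : ε.ker), E₀ τ s = 0 := fun τ s => by
    simp only [E₀, Bw, PT.TwHom.sub_apply, PT.TwHom.smul_apply, PT.TwHom.of_apply,
      AddMonoidHom.comp_apply, PT.TwHom.toHom_apply]
    rw [show π τ⁻¹ • (s : Lat (K ≃ₐ[ℚ] K) ι) =
        ((smulS hε.isStable_ker (π τ⁻¹) s : ε.ker) : Lat (K ≃ₐ[ℚ] K) ι) from rfl,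
      hBs, hBs, ← valQ_diag, ← hl.coboundary, map_sub, smul_valQ, ← map_inv (res L),
      ← map_inv (loc q), hπL, sub_self]
  choose m hm using fun τ => exists_pre_eq hε (E₀ τ) (hker τ)
  have hμ : ∀ τ (a : A), ∃ y : Additive QBarˣ, embQ q y = m τ a := fun τ a => by
    have h1 : p • m τ a = 0 := PT.nsmul_apply_eq_zero hε.killed (m τ) a
    have h2 : (((m τ a).toMul : (Ω q)ˣ) : Ω q) ^ p = 1 := by
      rw [← Units.val_pow_eq_pow_val, ← toMul_nsmul, h1]
      rfl
    haveI : NeZero p := ⟨hp.out.ne_zero⟩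
    obtain ⟨i, -, hi⟩ :=
      (hζ.map_of_injective (emb q).toRingHom.injective).eq_pow_of_pow_eq_one h2
    refine ⟨i • Additive.ofMul (Units.mk0 ζ (hζ.ne_zero hp.out.ne_zero)),
      Additive.toMul.injective (Units.ext ?_)⟩
    rw [← hi, map_nsmul, toMul_nsmul, Units.val_pow_eq_pow_val]
    rfl
  choose y hy using hμ
  let t : (Ω q ≃ₐ[ℚ_[(q : ℕ)]] Ω q) → PT.DualMod K A := fun τ =>
    PT.TwHom.of (AddMonoidHom.mk' (y τ) fun a a' => embQ_injective q (by
      rw [map_add (embQ q), hy, hy, hy, map_add]))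
  have ht : ∀ τ, PT.TwHom.pre ε (locDual q (t τ)) = E₀ τ := fun τ => by
    rw [← hm τ]
    exact congrArg (PT.TwHom.pre ε) (PT.TwHom.ext fun a => hy τ a)
  have hroot : ∀ r : ι × (K ≃ₐ[ℚ] K), ∃ F : IntermediateField ℚ QBar, FiniteDimensional ℚ F ∧
      (((B (Lat.e r.1 r.2)).toMul : (Ω q)ˣ) : Ω q) ∈ localField (q : ℕ) F := fun r => by
    have h1 : p • B (Lat.e r.1 r.2) = valQ q L (b (mulP hε.smul_mem (Lat.e r.1 r.2))) := by
      rw [← map_nsmul, ← hBs, coe_mulP]
    have h2 := congrArg (fun z : Additive (Ω q)ˣ => ((z.toMul : (Ω q)ˣ) : Ω q)) h1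
    simp only [toMul_nsmul, Units.val_pow_eq_pow_val] at h2
    obtain ⟨F, hF, -, -, hy⟩ := PT.exists_mem_localField_of_pow_mem (q := (q : ℕ)) hp2 L
      (Units.ne_zero _) (h2 ▸ valQ_mem q L _)
    exact ⟨F, hF, hy⟩
  choose F hF hFB using hroot
  obtain ⟨L', hL'fd, _, hL'⟩ := exists_normal_ge_family
    (fun o : Option (ι × (K ≃ₐ[ℚ] K)) => o.elim L F) fun o => by
      cases o with
      | none => exact inferInstanceAs (FiniteDimensional ℚ L)
      | some r => exact hF r
  have hfixB : ∀ τ, loc q τ ∈ L'.fixingSubgroup → ∀ x, τ • B x = B x := fun τ hτ x => by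
    have hpt : ∀ r : ι × (K ≃ₐ[ℚ] K), τ • B (Lat.e r.1 r.2) = B (Lat.e r.1 r.2) := fun r => by
      refine Additive.toMul.injective (Units.ext ?_)
      refine fixes_localField (q : ℕ) L' (fun z => ?_)
        (localField_mono (q : ℕ) (hL' (some r)) (hFB r))
      rw [← padicEmbedding_localGaloisToGlobal]
      exact congrArg _ ((IntermediateField.mem_fixingSubgroup_iff _ _).1 hτ z z.2)
    exact DFunLike.congr_fun (Lat.hom_ext (φ := (DistribSMul.toAddMonoidHom _ τ).comp B) (ψ := B)
      fun i k => hpt (i, k)) x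
  have hresK : ∀ τ, loc q τ ∈ L'.fixingSubgroup → res L (loc q τ) = 1 := fun τ hτ =>
    (res_eq_one_iff L).2 (IntermediateField.fixingSubgroup_antitone (hL' none) hτ)
  refine ⟨t, ⟨L', hL'fd, fun g s hs => locDual_injective q (pre_injective hε ?_)⟩,
    fun g h => locDual_injective q (pre_injective hε ?_)⟩
  · rw [ht, ht]
    refine PT.TwHom.ext fun x => ?_
    have e2 : π s⁻¹ = 1 := by
      rw [map_inv, ← hπL, hresK s hs, map_one, inv_one]
    simp only [E₀, Bw, PT.TwHom.sub_apply, PT.TwHom.smul_apply, PT.TwHom.of_apply, e2,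
      mul_smul, hfixB s hs, map_mul, one_smul, hresK s hs, mul_one]
  · have hbm : ∀ (τ : Ω q ≃ₐ[ℚ_[(q : ℕ)]] Ω q) (φ : PT.DualMod K A),
        PT.TwHom.pre ε (locDual q (loc q τ • φ)) = τ • PT.TwHom.pre ε (locDual q φ) := fun τ φ => by
      rw [locDual_smul, PT.TwHom.pre_smul ε hε.map_smul]
    simp only [map_add, map_sub, hbm, ht]
    refine PT.TwHom.ext fun x => ?_
    have h1 := congr_arg
      (fun φ : PT.TwHom (res K) (Lat (K ≃ₐ[ℚ] K) ι) _ => embQ q (φ x))
      (hl.spec (loc q g) (loc q h))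
    simp only [PT.dd, PT.TwHom.pre_apply, PT.toQHom_apply, PT.TwHom.add_apply,
      PT.TwHom.sub_apply, PT.TwHom.smul_apply, map_add, map_sub, ← map_inv (res L),
      hπL, ← map_inv (loc q), ← map_mul] at h1
    rw [PT.TwHom.pre_apply]
    refine h1.trans ?_
    simp only [E₀, Bw, PT.TwHom.add_apply, PT.TwHom.sub_apply, PT.TwHom.smul_apply,
      PT.TwHom.of_apply, AddMonoidHom.comp_apply, PT.TwHom.toHom_apply, smul_sub,
      map_mul, mul_smul, ← PT.smul_unitsToQ, ← smul_embQ]
    abel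

end Fermat.Agent.CFT.PTLevel
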