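import Fermat.Agent.CFT.PTLevel.LocTriv
import Fermat.Agent.CFT.PTLevel.Kernel
import Fermat.Agent.CFT.Formation.Global

/-!
# The Poitou–Tate pairing at the level of cocycles

For `A` a module of `Gal(K/ℚ)` killed by `p`, with a presentation: the pairing between locally
trivial `1`-cocycles in `A` and locally trivial `2`-cocycles in its Cartier dual, and its kernels.
-/

set_option autoImplicit false
set_option linter.unusedSectionVars false
set_option linter.style.haveILetI false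

noncomputable section

namespace Fermat.Agent.CFT.PTLevel

open ExtCitation Fermat.Agent.Arith IntermediateField Fermat.Agent.CFT.Local Fermat.Agent.CFT.Idele
open Fermat.Agent.CFT.Duality groupCohomology

local instance factPrimePairing (q : Nat.Primes) : Fact (q : ℕ).Prime := ⟨q.2⟩

section General

/-- The pairing `(c, a) ↦ Φ (f c) a`, `f c` chosen, is additive if `Φ` kills the ambiguity. -/
theorem exists_pairing_of_choice {Y X F V R : Type*} [AddCommGroup Y] [AddCommGroup X]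
    [AddCommGroup F] [AddCommGroup V] [AddCommGroup R] (rel : X → F → Prop)
    (hadd : ∀ x x' f f', rel x f → rel x' f' → rel (x + x') (f + f'))
    (hneg : ∀ x f, rel x f → rel (-x) (-f)) (hex : ∀ x, ∃ f, rel x f) (j : Y →+ V)
    (Φ : F →+ V →+ R) (hzero : ∀ f, rel 0 f → ∀ y, Φ f (j y) = 0) :
    ∃ B : Y →+ X →+ R, ∀ y x f, rel x f → B y x = Φ f (j y) := by
  choose f hf using hex
  have hwd : ∀ y x f₁ f₂, rel x f₁ → rel x f₂ → Φ f₁ (j y) = Φ f₂ (j y) := fun y x f₁ f₂ h₁ h₂ => by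
    have h := hzero (f₁ + -f₂) (by simpa using hadd _ _ _ _ h₁ (hneg _ _ h₂)) y
    rwa [map_add, map_neg, AddMonoidHom.add_apply, AddMonoidHom.neg_apply, ← sub_eq_add_neg,
      sub_eq_zero] at h
  refine ⟨AddMonoidHom.mk' (fun y => AddMonoidHom.mk' (fun x => Φ (f x) (j y)) fun x x' => ?_)
    fun y y' => AddMonoidHom.ext fun x => ?_, fun y x f₁ h => hwd y x _ _ (hf x) h⟩
  · rw [hwd y (x + x') _ _ (hf _) (hadd _ _ _ _ (hf x) (hf x')), map_add, AddMonoidHom.add_apply]
  · simp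

/-- Functionals separate the classes modulo a subgroup of a group killed by `p`. -/
theorem mem_of_forall_functional {p : ℕ} [Fact p.Prime] {V : Type*} [AddCommGroup V]
    (hV : ∀ v : V, p • v = 0) (B : AddSubgroup V) (v : V)
    (h : ∀ μ : V →+ ZMod p, (∀ w ∈ B, μ w = 0) → μ v = 0) : v ∈ B := by
  letI : Module (ZMod p) V := AddCommGroup.zmodModule (n := p) hV
  by_contra hv
  obtain ⟨f, hf, hfB⟩ := Submodule.exists_dual_map_eq_bot_of_notMem
    (p := AddSubgroup.toZModSubmodule p B) hv inferInstance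
  refine hf (h f.toAddMonoidHom fun w hw => ?_)
  have h1 := Submodule.mem_map_of_mem (f := f) (show w ∈ AddSubgroup.toZModSubmodule p B from hw)
  rwa [hfB, Submodule.mem_bot] at h1

end General

variable {K : IntermediateField ℚ QBar} [FiniteDimensional ℚ K] [Normal ℚ K]
  {A ι : Type*} [AddCommGroup A] [DistribMulAction (K ≃ₐ[ℚ] K) A] [Fintype ι] {p : ℕ}
  [hp : Fact p.Prime] {ε : Lat (K ≃ₐ[ℚ] K) ι →+ A} {S : Finset Nat.Primes}

variable (K A S) in
/-- Cocycles unramified outside `S` which are trivial over `S`. -/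
def locTriv₁ : AddSubgroup (GQ → A) where
  carrier := {a | IsLevelConstantS₁ S a ∧ (∀ g h, a (g * h) = res K g • a h + a g) ∧
    ∀ q ∈ S, ∃ x : A, ∀ τ, a (loc q τ) = res K (loc q τ) • x - x}
  add_mem' := by
    rintro a b ⟨ha, hac, hal⟩ ⟨hb, hbc, hbl⟩
    refine ⟨ha.add hb, fun g h => ?_, fun q hq => ?_⟩
    · simp only [Pi.add_apply, hac g h, hbc g h, smul_add]; abel
    · obtain ⟨x, hx⟩ := hal q hq
      obtain ⟨y, hy⟩ := hbl q hq
      exact ⟨x + y, fun τ => by simp only [Pi.add_apply, hx, hy, smul_add]; abel⟩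
  zero_mem' := ⟨isLevelConstantS₁_const S (0 : A), fun g h => by simp, fun q _ => ⟨0, fun τ => by simp⟩⟩
  neg_mem' := by
    rintro a ⟨ha, hac, hal⟩
    refine ⟨ha.comp Neg.neg, fun g h => ?_, fun q hq => ?_⟩
    · simp only [Pi.neg_apply, hac g h, smul_neg]; abel
    · obtain ⟨x, hx⟩ := hal q hq
      exact ⟨-x, fun τ => by simp only [Pi.neg_apply, hx, smul_neg]; abel⟩

variable (K A S) in
/-- Cocycles in the dual, unramified outside `S`, which are trivial over `S`. -/
def locTriv₂ : AddSubgroup (GQ × GQ → PT.DualMod K A) where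
  carrier := {c | IsCocycle₂ c ∧ IsLevelConstantS₂ S c ∧ ∀ q ∈ S,
    ∃ t : (Ω q ≃ₐ[ℚ_[(q : ℕ)]] Ω q) → PT.DualMod K A, IsLevelConstant₁ (loc q) t ∧
      ∀ g h, c (loc q g, loc q h) = loc q g • t h - t (g * h) + t g}
  add_mem' := by
    rintro a b ⟨ha, hac, hal⟩ ⟨hb, hbc, hbl⟩
    refine ⟨fun g h j => ?_, hac.add hbc, fun q hq => ?_⟩
    · simp only [Pi.add_apply, smul_add]
      rw [add_add_add_comm, ha g h j, hb g h j, add_add_add_comm]
    · obtain ⟨t, ht, htc⟩ := hal q hq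
      obtain ⟨t', ht', htc'⟩ := hbl q hq
      exact ⟨t + t', ht.add ht', fun g h => by
        simp only [Pi.add_apply, htc, htc', smul_add]; abel⟩
  zero_mem' := ⟨fun g h j => by simp, isLevelConstantS₂_const S (0 : PT.DualMod K A),
    fun q _ => ⟨0, isLevelConstant₁_const _ (0 : PT.DualMod K A), fun g h => by simp⟩⟩
  neg_mem' := by
    rintro a ⟨ha, hac, hal⟩
    refine ⟨fun g h j => ?_, hac.comp Neg.neg, fun q hq => ?_⟩
    · simp only [Pi.neg_apply, smul_neg]
      rw [← neg_add, ha g h j, neg_add]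
    · obtain ⟨t, ht, htc⟩ := hal q hq
      exact ⟨-t, ht.comp Neg.neg, fun g h => by simp only [Pi.neg_apply, htc, smul_neg]; abel⟩

/-- A cocycle is trivial at the archimedean place. -/
theorem exists_coboundary_infinite (hp2 : p ≠ 2) (hA : ∀ a : A, p • a = 0) (a : GQ → A)
    (hac : ∀ g h, a (g * h) = res K g • a h + a g) :
    ∃ x : A, ∀ g, a (archimedeanLoc g) = res K (archimedeanLoc g) • x - x := by
  set σ : GQ := complexConjugation with hσdef
  obtain ⟨m, hm⟩ : ∃ m : ℕ, (p : ℕ) = 2 * m + 1 := (hp.out.odd_of_ne_two hp2)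
  have hsq : σ * σ = 1 := complexConjugation_mul_self
  have h1 : a 1 = 0 := by simpa using hac 1 1
  have h2 : res K σ • a σ = -a σ :=
    eq_neg_of_add_eq_zero_left (by rw [← hac, hsq, h1])
  refine ⟨m • a σ, fun g => ?_⟩
  obtain ⟨i, hi⟩ := Subgroup.mem_zpowers_iff.1 g.2
  have hg : archimedeanLoc g = 1 ∨ archimedeanLoc g = σ := by
    show (g : GQ) = 1 ∨ (g : GQ) = σ
    rw [← hi]
    rcases Int.even_or_odd i with ⟨k, rfl⟩ | ⟨k, rfl⟩
    · exact Or.inl (by rw [zpow_add, ← Commute.mul_zpow rfl, hsq, one_zpow])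
    · exact Or.inr (by rw [zpow_add_one, two_mul k, zpow_add, ← Commute.mul_zpow rfl, hsq,
        one_zpow, one_mul])
  rcases hg with hg | hg <;> rw [hg]
  · rw [h1, map_one, one_smul, sub_self]
  · rw [smul_comm, h2, smul_neg, ← sub_eq_zero]
    have := hA (a σ)
    rw [hm, add_nsmul, mul_nsmul', one_nsmul, two_nsmul] at this
    rw [← this]
    abel

variable (hε : Presentation p ε)

include hε in
theorem isLevelConstantS₂_of_linked {c : GQ × GQ → PT.DualMod K A} {f : ε.ker →+ C K}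
    (hl : PT.Linked hε S c f) : IsLevelConstantS₂ S c := by
  obtain ⟨L, _, _, le, hur, b, e, hl⟩ := hl
  refine ⟨L, hur, fun g g' s s' hs hs' => pre_injective hε ?_⟩
  rw [hl.spec, hl.spec, map_mul, map_mul, (res_eq_one_iff L).2 hs, (res_eq_one_iff L).2 hs',
    mul_one, mul_one]

section Level

variable {L : IntermediateField ℚ QBar} [FiniteDimensional ℚ L] [Normal ℚ L] {le : K ≤ L}

include hε in
theorem apply_eq_of_res_eq (hL : LevelField p S le) {ζ : QBar} (hζ : IsPrimitiveRoot ζ p)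
    (hζK : ζ ∈ K) {a : GQ → A} (ha : a ∈ locTriv₁ K A S) {g g' : GQ} (h : res L g = res L g') :
    a g' = a g := by
  letI : Module (ZMod p) A := AddCommGroup.zmodModule (n := p) hε.killed
  obtain ⟨⟨F, hF, hFa⟩, hc, -⟩ := ha
  have hs := (res_eq_iff L).1 h
  have hadd : ∀ g s, g ∈ K.fixingSubgroup → s ∈ K.fixingSubgroup → a (g * s) = a g + a s :=
    fun g s hg _ => by rw [hc, (res_eq_one_iff K).2 hg, one_smul, add_comm]
  have h0 := hL.hom_eq_zero hζ hζK hF a hadd (fun g _ s hs => hFa g s hs) hs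
  conv_lhs => rw [← mul_inv_cancel_left g g', hc, h0, smul_zero, zero_add]

include hε in
/-- Restriction of locally trivial cocycles to the level field. -/
theorem exists_bar (hL : LevelField p S le) {ζ : QBar} (hζ : IsPrimitiveRoot ζ p) (hζK : ζ ∈ K) :
    ∃ j : locTriv₁ K A S →+ levelCocycles (levelRes le) A,
      (∀ a g, ((j a : levelCocycles (levelRes le) A) : (L ≃ₐ[ℚ] L) → A) (res L g) =
        (a : GQ → A) g) ∧ ∀ a, ∀ q ∈ S, j a ∈ trivAt le A q := by
  have hmem : ∀ a : locTriv₁ K A S, (fun σ => (a : GQ → A) (lift L σ)) ∈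
      levelCocycles (levelRes le) A := fun a => fun g h => by
    show (a : GQ → A) (lift L (g * h)) = _
    rw [apply_eq_of_res_eq hε hL hζ hζK a.2 (g := lift L g * lift L h)
      (g' := lift L (g * h)) (by rw [map_mul, res_lift, res_lift, res_lift]), a.2.2.1]
    rw [← levelRes_res le, res_lift]
  refine ⟨AddMonoidHom.mk' (fun a => ⟨_, hmem a⟩) fun a b => rfl, fun a g =>
    apply_eq_of_res_eq hε hL hζ hζK a.2 (res_lift L _).symm, fun a q hq => ?_⟩
  obtain ⟨x, hx⟩ := a.2.2.2 q hq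
  refine ⟨x, fun g hg => ?_⟩
  obtain ⟨s, rfl⟩ := MonoidHom.mem_range.1 hg
  obtain ⟨τ, rfl⟩ := AlgEquiv.restrictNormalHom_surjective (K₁ := E L q) (Ω q) s
  rw [toGlobal_restrict]
  show (a : GQ → A) (lift L (res L (loc q τ))) = _
  rw [apply_eq_of_res_eq hε hL hζ hζK a.2 (g := loc q τ)
    (g' := lift L (res L (loc q τ))) (res_lift L _).symm, hx, levelRes_res]

/-- Inflation of a cocycle of the level field. -/
theorem comp_res_mem (hur : L.IsUnramifiedOutside S) (b : levelCocycles (levelRes le) A)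
    (hb : ∀ q ∈ S, b ∈ trivAt le A q) :
    (fun g => (b : (L ≃ₐ[ℚ] L) → A) (res L g)) ∈ locTriv₁ K A S := by
  refine ⟨⟨L, hur, fun g s hs => ?_⟩, fun g h => ?_, fun q hq => ?_⟩
  · show (b : (L ≃ₐ[ℚ] L) → A) (res L (g * s)) = _
    rw [map_mul, (res_eq_one_iff L).2 hs, mul_one]
  · show (b : (L ≃ₐ[ℚ] L) → A) (res L (g * h)) = _
    rw [map_mul, b.2, levelRes_res]
  · obtain ⟨x, hx⟩ := hb q hq
    refine ⟨x, fun τ => ?_⟩
    show (b : (L ≃ₐ[ℚ] L) → A) (res L (loc q τ)) = _
    rw [hx _ ⟨_, toGlobal_restrict (q : ℕ) L τ⟩, levelRes_res]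

end Level

include hε in
/-- The pairing with its kernels. -/
theorem exists_pairing (hp2 : p ≠ 2) (hpS : pPrime p ∈ S) {ζ : QBar} (hζ : IsPrimitiveRoot ζ p)
    (hζK : ζ ∈ K) (hK : K.IsUnramifiedOutside S) :
    ∃ B : locTriv₁ K A S →+ locTriv₂ K A S →+ ZMod p,
      (∀ (a : locTriv₁ K A S) c, (∃ x : A, ∀ g, (a : GQ → A) g = res K g • x - x) → B a c = 0) ∧
      (∀ a (c : locTriv₂ K A S), (∃ m, IsLevelConstantS₁ S m ∧
        ∀ g h, (c : GQ × GQ → PT.DualMod K A) (g, h) = PT.dd m g h) → B a c = 0) ∧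
      (∀ a : locTriv₁ K A S, (∀ c, B a c = 0) → ∃ x : A, ∀ g, (a : GQ → A) g = res K g • x - x) ∧
      ∀ c : locTriv₂ K A S, (∀ a, B a c = 0) → ∃ m, IsLevelConstantS₁ S m ∧
        ∀ g h, (c : GQ × GQ → PT.DualMod K A) (g, h) = PT.dd m g h := by
  classical
  obtain ⟨L, _, _, le, hL⟩ := exists_levelField hp2 hζ hζK hpS hK
  have hζL : IsPrimitiveRoot (⟨ζ, le hζK⟩ : L) p :=
    IsPrimitiveRoot.of_map_of_injective (f := L.val) hζ L.val.injective
  obtain ⟨u, hu⟩ := Formation.exists_classFormation hp2 L hζL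
  have hk := hL.isPGroup
  haveI := Fintype.ofFinite (levelRes le).ker
  obtain ⟨j, hj, hjloc⟩ := exists_bar hε hL hζ hζK (A := A)
  obtain ⟨B, hB⟩ := exists_pairing_of_choice (Y := locTriv₁ K A S) (X := locTriv₂ K A S)
    (fun c f => PT.Linked hε S (c : GQ × GQ → PT.DualMod K A) (f : equivHom _).1)
    (fun _ _ _ _ h h' => h.add h') (fun _ _ h => h.neg)
    (fun c => exists_linked_of_local hε hp2 hζ hζK hK _ c.2.1 c.2.2.1 c.2.2.2) j
    (dual hε le hu hk)
    fun f hf y => dual_eq_zero_of_linked_zero hε hu hk hL.ur hf (j y) (hjloc y)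
  refine ⟨B, fun a c ⟨x, hx⟩ => ?_, fun a c ⟨m, hm, hmc⟩ => ?_, fun a ha => ?_, fun c hc => ?_⟩
  · obtain ⟨f, hf⟩ := exists_linked_of_local hε hp2 hζ hζK hK _ c.2.1 c.2.2.1 c.2.2.2
    rw [hB a c f hf]
    refine theta_coboundary (levelSystem le hu hk) hε f (j a) x fun σ => ?_
    rw [← res_lift L σ, hj, hx, levelRes_res]
  · have hl : PT.Linked hε S (c : GQ × GQ → PT.DualMod K A)
        ((0 : equivHom (C := C K) hε.isStable_ker)).1 := by
      rw [show (c : GQ × GQ → PT.DualMod K A) = fun x => PT.dd m x.1 x.2 from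
        funext fun x => hmc x.1 x.2]
      exact linked_coboundary hε hζ hζK hK m hm
    rw [hB a c 0 hl, map_zero, AddMonoidHom.zero_apply]
  · have hfun : ∀ f, dual hε le hu hk f (j a) = 0 := fun f => by
      obtain ⟨c, hcc, hl⟩ := exists_link hε hpS hK f
      have hmem : c ∈ locTriv₂ K A S := ⟨hcc, isLevelConstantS₂_of_linked hε hl,
        fun q _ => exists_local_of_linked hε q hp2 hζ hl⟩
      exact (hB a ⟨c, hmem⟩ f hl).symm.trans (ha _)
    let Bd := coboundOn (levelRes le) A ⊤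
    have hmemB : j a ∈ Bd := by
      refine mem_of_forall_functional (nsmul_levelCocycle le hε) Bd (j a) fun μ hμ => ?_
      obtain ⟨f, hf⟩ := exists_dual_eq hε le hu hk μ fun v x hx => hμ v ⟨x, fun g _ => hx g⟩
      exact (DFunLike.congr_fun hf (j a)).symm.trans (hfun f)
    obtain ⟨x, hx⟩ := hmemB
    exact ⟨x, fun g => by rw [← hj a g, hx _ trivial, levelRes_res]⟩
  · obtain ⟨f, hf⟩ := exists_linked_of_local hε hp2 hζ hζK hK _ c.2.1 c.2.2.1 c.2.2.2
    refine exists_cochain_of_dual_eq_zero hε hu hk hp2 hpS hζ hζK hL hf fun b hb => ?_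
    have hb' := comp_res_mem hL.ur b hb
    have e : j ⟨_, hb'⟩ = b := Subtype.ext (funext fun σ => by
      conv_lhs => rw [← res_lift L σ, hj]
      show (b : (L ≃ₐ[ℚ] L) → A) (res L (lift L σ)) = _
      rw [res_lift])
    rw [← e, ← hB ⟨_, hb'⟩ c f hf]
    exact hc _

end Fermat.Agent.CFT.PTLevel
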